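import Fermat.Agent.Moduli.Tau

set_option autoImplicit false

open UpperHalfPlane ModularForm EisensteinSeries

open scoped PeriodPair

noncomputable section

namespace Fermat.Agent.Moduli

open WeierstrassCurve WeierstrassCurve.Affine WeierstrassCurve.Affine.Point

open Isog (nz kap fN xc eta IsTwo Split)

open Fermat.Agent.JLevelOne (jFun)
open Fermat.Agent.X0Emb (aff)

/-- the differences of the roots of the quotient curve. -/
def dd {F : Type*} [Field F] [DecidableEq F] {W : WeierstrassCurve.Affine F}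
    (N : AddSubgroup W.Point) [Fintype N] [DecidableEq N] (e e' e'' : F) : F :=
  (e' - e) ^ (Fintype.card N) * kap N e'' / (kap N e' * kap N e)

/-- the invariant of the quotient curve. -/
def jj {F : Type*} [Field F] (d d' d'' : F) : F :=
  32 * (d ^ 2 + d' ^ 2 + d'' ^ 2) ^ 3 / (d * d' * d'') ^ 2

theorem super_of (L : PeriodPair) {W : WeierstrassCurve.Affine ℂ} (h : Unif L W) {Q : W.Point}
    {ω : ℂ} (hω : h.hom ω = Q) {L' : PeriodPair}
    (hL' : ∀ z, z ∈ L'.lattice ↔ ∃ k : ℤ, z - k * ω ∈ L.lattice) :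
    h.Super L' (AddSubgroup.zmultiples Q) where
  mem_iff z := by
    rw [AddSubgroup.mem_zmultiples_iff, hL']
    refine exists_congr fun k => ?_
    rw [← h.hom_ker, map_sub, sub_eq_zero, eq_comm]
    have : h.hom ((k : ℂ) * ω) = k • Q := by
      rw [← hω, ← map_zsmul, zsmul_eq_mul]
    rw [this]

/-- **Moduli interpretation over `ℂ`.** -/
theorem exists_tau (W : WeierstrassCurve.Affine ℂ) (hΔ : W.Δ ≠ 0) {p : ℕ} [NeZero p]
    (hp : p.Prime) (hp2 : p ≠ 2) (Q : W.Point) (hQ : addOrderOf Q = p)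
    [Fintype (AddSubgroup.zmultiples Q)] [DecidableEq (AddSubgroup.zmultiples Q)]
    {e e' e'' : ℂ} (hsp : Split W e e' e'') :
    ∃ τ : ℍ, jFun τ = W.c₄ ^ 3 / W.Δ ∧
      jFun (aff p 0 1 τ) = jj (dd (AddSubgroup.zmultiples Q) e e' e'')
        (dd (AddSubgroup.zmultiples Q) e' e'' e) (dd (AddSubgroup.zmultiples Q) e'' e e') ∧
      ModularForm.discriminant τ / ModularForm.discriminant (aff p 0 1 τ) =
        p ^ 12 * W.Δ / (16 * (dd (AddSubgroup.zmultiples Q) e e' e'' *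
          dd (AddSubgroup.zmultiples Q) e' e'' e * dd (AddSubgroup.zmultiples Q) e'' e e') ^ 2) := by
  have hcard : Fintype.card (AddSubgroup.zmultiples Q) = p := by
    rw [← Nat.card_eq_fintype_card, Nat.card_zmultiples, hQ]
  have hodd : Odd (Fintype.card (AddSubgroup.zmultiples Q)) := by
    rw [hcard]; exact hp.odd_of_ne_two hp2
  have hpC : (p : ℂ) ≠ 0 := by exact_mod_cast NeZero.ne p
  obtain ⟨L, h⟩ := exists_unif W hΔ
  have hpQ : p • Q = 0 := by rw [← hQ]; exact addOrderOf_nsmul_eq_zero Q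
  obtain ⟨ω, hω1, hω2⟩ := h.exists_of_torsion (NeZero.ne p) hpQ
  have hω3 : ω ∉ L.lattice := by
    intro h'
    rw [← h.hom_ker, hω2] at h'
    rw [h', addOrderOf_zero] at hQ
    exact hp.one_lt.ne hQ
  obtain ⟨α, hα, hα', τ, hL, hL'⟩ := exists_basis L hp hω1 hω3
  have hs := super_of L h hω2 hL'
  obtain ⟨E, E', E'', d1, d2, d3, hsum, hg2, hg3⟩ := hs.invariants hodd hsp
  have d1' : dd (AddSubgroup.zmultiples Q) e e' e'' = E' - E := d1.symm
  have d2' : dd (AddSubgroup.zmultiples Q) e' e'' e = E'' - E' := d2.symm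
  have d3' : dd (AddSubgroup.zmultiples Q) e'' e e' = E - E'' := d3.symm
  rw [d1', d2', d3']
  have hπ := two_pi_ne_zero'
  -- invariants of `L`
  have l2 : L.g₂ = (2 * Real.pi / α) ^ 4 * E₄ τ / 12 := by
    rw [← g₂_mkPP α hα τ, PeriodPair.g₂, PeriodPair.g₂, G_congr hL]
  have l3 : L.g₃ = (2 * Real.pi / α) ^ 6 * E₆ τ / 216 := by
    rw [← g₃_mkPP α hα τ, PeriodPair.g₃, PeriodPair.g₃, G_congr hL]
  rw [h.g₂] at l2
  rw [h.g₃] at l3
  set s : ℂ := 2 * Real.pi / α with hs_def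
  have hs0 : s ≠ 0 := div_ne_zero hπ hα
  have c4 : W.c₄ = s ^ 4 * E₄ τ := by linear_combination 12 * l2
  have c6 : W.c₆ = s ^ 6 * E₆ τ := by linear_combination 216 * l3
  have hd := discriminant_eq_E₄_cube_sub_E₆_sq τ
  have hd0 := discriminant_ne_zero τ
  have hrel := W.c_relation
  have hΔs : W.Δ = s ^ 12 * ModularForm.discriminant τ := by
    rw [hd]
    rw [c4, c6] at hrel
    linear_combination hrel / 1728
  -- invariants of `L'`
  set τ' := aff p 0 1 τ with hτ'
  have hs' : 2 * Real.pi / (α / p) = p * s := by rw [hs_def]; field_simp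
  rw [g₂_mkPP, hs'] at hg2
  rw [g₃_mkPP, hs'] at hg3
  have hd' := discriminant_eq_E₄_cube_sub_E₆_sq τ'
  have hd0' := discriminant_ne_zero τ'
  have hE : E'' = -(E + E') := by linear_combination hsum
  have hdisc : (p * s) ^ 12 * ModularForm.discriminant τ' =
      16 * ((E' - E) * (E'' - E') * (E - E'')) ^ 2 := by
    have e1 : (p * s) ^ 12 * ModularForm.discriminant τ' =
        ((p * s) ^ 4 * E₄ τ' / 12) ^ 3 - 27 * ((p * s) ^ 6 * E₆ τ' / 216) ^ 2 := by
      rw [hd']; ring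
    rw [e1, hg2, hg3, hE]
    ring
  have hps : (p * s : ℂ) ≠ 0 := mul_ne_zero hpC hs0
  have hdd : 16 * ((E' - E) * (E'' - E') * (E - E'')) ^ 2 ≠ 0 := by
    rw [← hdisc]
    exact mul_ne_zero (pow_ne_zero _ hps) hd0'
  have hdd' : ((E' - E) * (E'' - E') * (E - E'')) ^ 2 ≠ 0 := (mul_ne_zero_iff.mp hdd).2
  refine ⟨τ, ?_, ?_, ?_⟩
  · rw [jFun, c4, hΔs]
    field_simp
  · rw [jFun, jj, div_eq_div_iff hd0' hdd']
    have e2 : E₄ τ' = 12 * (-4 * (E * E' + E * E'' + E' * E'')) / (p * s) ^ 4 := by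
      rw [← hg2]; field_simp
    have e3 : ModularForm.discriminant τ' = 16 * ((E' - E) * (E'' - E') * (E - E'')) ^ 2 /
        (p * s) ^ 12 := by
      rw [← hdisc]; field_simp
    rw [e2, e3, hE]
    field_simp
    ring
  · rw [← hτ', hΔs, ← hdisc]
    field_simp

end Fermat.Agent.Moduli
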