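import Fermat.Agent.Moduli.Hom
import Fermat.Agent.Isog.Map

set_option autoImplicit false

open Filter Topology

open scoped PeriodPair

namespace Fermat.Agent.Moduli

open WeierstrassCurve WeierstrassCurve.Affine WeierstrassCurve.Affine.Point

open Isog (nz kap fN xc eta IsTwo Split)

/-- An even analytic function is constant up to second order. -/
lemma even_analytic {A : ℂ → ℂ} (hA : AnalyticAt ℂ A 0) (he : ∀ᶠ z in 𝓝 (0:ℂ), A (-z) = A z) :
    ∃ B : ℂ → ℂ, AnalyticAt ℂ B 0 ∧ ∀ᶠ z in 𝓝 (0:ℂ), A z = A 0 + z ^ 2 * B z := by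
  have hf : AnalyticAt ℂ (fun z => A z - A 0) 0 := hA.sub analyticAt_const
  have h1 : ((1 : ℕ) : ℕ∞) ≤ analyticOrderAt (fun z => A z - A 0) 0 := by
    rw [Nat.cast_one, Order.one_le_iff_ne_zero, hf.analyticOrderAt_ne_zero]
    simp
  obtain ⟨g, hg, hgz⟩ := (natCast_le_analyticOrderAt hf).mp h1
  simp only [sub_zero, pow_one, smul_eq_mul] at hgz
  have hneg : Tendsto (fun z : ℂ => -z) (𝓝 0) (𝓝 0) := by
    have : ContinuousAt (fun z : ℂ => -z) 0 := by fun_prop
    simpa using this.tendsto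
  have hodd : ∀ᶠ z in 𝓝[≠] (0:ℂ), g (-z) = - g z := by
    filter_upwards [he.filter_mono nhdsWithin_le_nhds, hgz.filter_mono nhdsWithin_le_nhds,
      (hneg.eventually hgz).filter_mono nhdsWithin_le_nhds, self_mem_nhdsWithin] with z h1 h2 h3 h4
    have h4 : z ≠ 0 := h4
    rw [h1, h2] at h3
    have : z * (g (-z) + g z) = 0 := by linear_combination h3
    rcases mul_eq_zero.mp this with h | h
    · exact absurd h h4
    · linear_combination h
  have hg0 : g 0 = 0 := by
    have l1 : Tendsto (fun z => g (-z)) (𝓝[≠] (0:ℂ)) (𝓝 (g 0)) := by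
      have : ContinuousAt (fun z : ℂ => g (-z)) 0 := by
        refine ContinuousAt.comp (g := g) ?_ (by fun_prop)
        simpa using hg.continuousAt
      have h2 := this.tendsto
      simp only [_root_.neg_zero] at h2
      exact h2.mono_left nhdsWithin_le_nhds
    have l2 : Tendsto (fun z => - g z) (𝓝[≠] (0:ℂ)) (𝓝 (- g 0)) :=
      (hg.continuousAt.tendsto.neg).mono_left nhdsWithin_le_nhds
    have := tendsto_nhds_unique (l1.congr' hodd) l2
    have h2 : (2:ℂ) * g 0 = 0 := by linear_combination this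
    simpa using h2
  have h2 : ((1 : ℕ) : ℕ∞) ≤ analyticOrderAt g 0 := by
    rw [Nat.cast_one, Order.one_le_iff_ne_zero, hg.analyticOrderAt_ne_zero]
    exact hg0
  obtain ⟨B, hB, hBz⟩ := (natCast_le_analyticOrderAt hg).mp h2
  simp only [sub_zero, pow_one, smul_eq_mul] at hBz
  refine ⟨B, hB, ?_⟩
  filter_upwards [hgz, hBz] with z h1 h2
  rw [h2] at h1
  linear_combination h1

namespace Unif

variable {L : PeriodPair} {W : WeierstrassCurve.Affine ℂ}

/-- the data of a superlattice corresponding to a finite subgroup -/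
structure Super (h : Unif L W) (L' : PeriodPair) (N : AddSubgroup W.Point) : Prop where
  mem_iff : ∀ z, h.hom z ∈ N ↔ z ∈ L'.lattice

namespace Super

variable {h : Unif L W} {L' : PeriodPair} {N : AddSubgroup W.Point}

lemma le (hs : h.Super L' N) {z : ℂ} (hz : z ∈ L.lattice) : z ∈ L'.lattice := by
  rw [← hs.mem_iff, h.hom_ker.mpr hz]
  exact N.zero_mem

variable [Fintype N]

lemma exists_lift (h : Unif L W) (S : N) : ∃ z : ℂ, h.hom z = (S : W.Point) := by
  have h1 : (Fintype.card N) • S = 0 := card_nsmul_eq_zero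
  obtain ⟨z, -, hz⟩ := h.exists_of_torsion (n := Fintype.card N) Fintype.card_ne_zero
    (P := (S : W.Point)) (by rw [← AddSubgroup.coe_nsmul, h1]; rfl)
  exact ⟨z, hz⟩

/-- a lift -/
noncomputable def lift (h : Unif L W) (S : N) : ℂ := (exists_lift h S).choose

lemma hom_lift (h : Unif L W) (S : N) : h.hom (lift h S) = (S : W.Point) :=
  (exists_lift h S).choose_spec

lemma lift_mem (hs : h.Super L' N) (S : N) : lift h S ∈ L'.lattice := by
  rw [← hs.mem_iff, hom_lift]; exact S.2

lemma lift_mem_iff (h : Unif L W) (S : N) : lift h S ∈ L.lattice ↔ S = 0 := by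
  rw [← h.hom_ker, hom_lift]
  constructor
  · intro h'; exact Subtype.ext h'
  · rintro rfl; rfl

variable [DecidableEq N]

/-- the product, as a function on `ℂ` -/
noncomputable def FF (h : Unif L W) (N : AddSubgroup W.Point) [Fintype N] (e : ℂ) (z : ℂ) : ℂ :=
  ∏ S : N, (℘[L] (z + lift h S) - W.b₂ / 12 - e)

lemma add_lift_notMem (hs : h.Super L' N) {z : ℂ} (hz : z ∉ L'.lattice) (S : N) :
    z + lift h S ∉ L.lattice := by
  intro h'
  apply hz
  have := sub_mem (hs.le h') (hs.lift_mem S)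
  simpa using this

lemma FF_eq (hs : h.Super L' N) (e : ℂ) {z : ℂ} (hz : z ∉ L'.lattice) :
    FF h N e z = ∏ S : N, (xc (h.hom z + (S : W.Point)) - e) := by
  refine Finset.prod_congr rfl fun S _ => ?_
  rw [← hom_lift h S, ← map_add, h.xc_hom (hs.add_lift_notMem hz S)]

lemma FF_add (hs : h.Super L' N) (e : ℂ) {z l : ℂ} (hz : z ∉ L'.lattice) (hl : l ∈ L'.lattice) :
    FF h N e (z + l) = FF h N e z := by
  have hz' : z + l ∉ L'.lattice := fun h' => hz (by simpa using sub_mem h' hl)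
  rw [hs.FF_eq e hz, hs.FF_eq e hz']
  have hl' : h.hom l ∈ N := (hs.mem_iff l).mpr hl
  refine Fintype.prod_equiv (Equiv.addLeft ⟨h.hom l, hl'⟩) _ _ fun S' => ?_
  rw [Equiv.coe_addLeft, AddSubgroup.coe_add, map_add, add_assoc]

/-- the product without the zero term -/
noncomputable def AA (h : Unif L W) (N : AddSubgroup W.Point) [Fintype N] [DecidableEq N]
    (e : ℂ) (z : ℂ) : ℂ :=
  ∏ S ∈ nz N, (℘[L] (z + lift h S) - W.b₂ / 12 - e)

lemma FF_eq_mul_AA (h : Unif L W) (e z : ℂ) :
    FF h N e z = (℘[L] z - W.b₂ / 12 - e) * AA h N e z := by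
  rw [FF, AA, ← Finset.mul_prod_erase _ _ (Finset.mem_univ (0 : N))]
  congr 3
  have h0 : lift h (0 : N) ∈ L.lattice := (lift_mem_iff h 0).mpr rfl
  exact L.weierstrassP_add_coe z ⟨_, h0⟩

lemma analyticAt_AA (h : Unif L W) (e : ℂ) : AnalyticAt ℂ (AA h N e) 0 := by
  unfold AA
  refine Finset.analyticAt_fun_prod _ fun S hS => ?_
  have h1 : (0:ℂ) + lift h S ∉ L.lattice := by
    rw [zero_add, lift_mem_iff]
    exact (Isog.mem_nz N).mp hS
  have h2 : AnalyticAt ℂ (fun z => ℘[L] (z + lift h S)) 0 :=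
    AnalyticAt.comp (g := ℘[L]) (analyticAt_P L h1) (by fun_prop)
  exact (h2.sub analyticAt_const).sub analyticAt_const

lemma AA_zero (h : Unif L W) (e : ℂ) : AA h N e 0 = kap N e := by
  refine Finset.prod_congr rfl fun S hS => ?_
  have h1 : lift h S ∉ L.lattice := by
    rw [lift_mem_iff]
    exact (Isog.mem_nz N).mp hS
  rw [zero_add, ← hom_lift h S, h.xc_hom h1]

lemma AA_even (hs : h.Super L' N) (e : ℂ) : ∀ᶠ z in 𝓝 (0:ℂ), AA h N e (-z) = AA h N e z := by
  have hall : ∀ᶠ z in 𝓝 (0:ℂ), ∀ S ∈ nz N, z + lift h S ∉ L.lattice := by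
    rw [Filter.eventually_all_finset]
    intro S hS
    have h1 : (0:ℂ) + lift h S ∉ L.lattice := by
      rw [zero_add, lift_mem_iff]
      exact (Isog.mem_nz N).mp hS
    have hc : ContinuousAt (fun z : ℂ => z + lift h S) 0 := by fun_prop
    exact hc.eventually (eventually_notMem_lattice' L h1)
  have hneg : Tendsto (fun z : ℂ => -z) (𝓝 0) (𝓝 0) := by
    have : ContinuousAt (fun z : ℂ => -z) 0 := by fun_prop
    simpa using this.tendsto
  filter_upwards [hall, hneg.eventually hall] with z h1 h2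
  refine Finset.prod_bij' (fun S _ => -S) (fun S _ => -S) ?_ ?_ ?_ ?_ ?_
  · intro S hS; rw [Isog.mem_nz] at hS ⊢; exact neg_ne_zero.mpr hS
  · intro S hS; rw [Isog.mem_nz] at hS ⊢; exact neg_ne_zero.mpr hS
  · intro S _; exact neg_neg S
  · intro S _; exact neg_neg S
  · intro S hS
    have hS' : -S ∈ nz N := by rw [Isog.mem_nz] at hS ⊢; exact neg_ne_zero.mpr hS
    have e1 := h.xc_hom (h2 S hS)
    have e2 := h.xc_hom (h1 (-S) hS')
    have e3 : h.hom (z + lift h (-S)) = - h.hom (-z + lift h S) := by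
      rw [map_add, map_add, map_neg, hom_lift, hom_lift, AddSubgroup.coe_neg]
      abel
    rw [e3, Isog.xc_neg, e1] at e2
    rw [e2]

/-- Liouville: the product is an affine function of `℘` of the superlattice. -/
theorem exists_const (hs : h.Super L' N) (e : ℂ) :
    ∃ C : ℂ, ∀ z, z ∉ L'.lattice → FF h N e z = kap N e * ℘[L'] z + C := by
  classical
  obtain ⟨B, hB, hBz⟩ := even_analytic (analyticAt_AA (N := N) h e) (hs.AA_even e)
  rw [AA_zero] at hBz
  set k := kap N e with hk
  set H : ℂ → ℂ := fun z => B z + (℘[L - (0:ℂ)] z - W.b₂ / 12 - e) * (k + z ^ 2 * B z) -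
    k * ℘[L' - (0:ℂ)] z with hH
  have hHa : AnalyticAt ℂ H 0 := by
    have := L.analyticAt_weierstrassPExcept 0
    have := L'.analyticAt_weierstrassPExcept 0
    fun_prop
  set G : ℂ → ℂ := fun z => if z ∈ L'.lattice then H 0 else FF h N e z - k * ℘[L'] z with hG
  have hGper : ∀ z l, l ∈ L'.lattice → G (z + l) = G z := by
    intro z l hl
    by_cases hz : z ∈ L'.lattice
    · simp only [hG, hz, add_mem hz hl, if_true]
    · have hz' : z + l ∉ L'.lattice := fun h' => hz (by simpa using sub_mem h' hl)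
      simp only [hG, hz, hz', if_false]
      rw [hs.FF_add e hz hl, L'.weierstrassP_add_coe z ⟨l, hl⟩]
  have hG0 : G =ᶠ[𝓝 0] H := by
    filter_upwards [hBz, L'.compl_lattice_sdiff_singleton_mem_nhds 0] with z h1 h2
    by_cases hz0 : z = 0
    · subst hz0
      simp [hG]
    · have hz : z ∉ L'.lattice := fun h' => h2 ⟨h', hz0⟩
      simp only [hG, hz, if_false]
      rw [FF_eq_mul_AA, h1, weierstrassP_eq L z, weierstrassP_eq L' z, hH]
      field_simp
      ring
  have hGd : Differentiable ℂ G := by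
    intro x
    by_cases hx : x ∈ L'.lattice
    · have h0 : DifferentiableAt ℂ G 0 := (hHa.congr hG0.symm).differentiableAt
      have h1 : (fun z => G (z - x)) = G := by
        funext z
        have := hGper (z - x) x hx
        rw [sub_add_cancel] at this
        exact this.symm
      rw [← h1]
      refine DifferentiableAt.comp (g := G) x ?_ (by fun_prop)
      simpa using h0
    · have h1 : AnalyticAt ℂ (fun z => FF h N e z - k * ℘[L'] z) x := by
        have a1 : AnalyticAt ℂ (FF h N e) x := by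
          unfold FF
          refine Finset.analyticAt_fun_prod _ fun S hS => ?_
          have h2 : AnalyticAt ℂ (fun z => ℘[L] (z + lift h S)) x :=
            AnalyticAt.comp (g := ℘[L]) (analyticAt_P L (hs.add_lift_notMem hx S)) (by fun_prop)
          exact (h2.sub analyticAt_const).sub analyticAt_const
        have a2 := analyticAt_P L' hx
        fun_prop
      refine h1.differentiableAt.congr_of_eventuallyEq ?_
      filter_upwards [eventually_notMem_lattice' L' hx] with z hz
      simp only [hG, hz, if_false]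
  have hconst := (hGd.apply_eq_apply_of_bounded (IsZLattice.isCompact_range_of_periodic L'.lattice _
    hGd.continuous fun z w hw => hGper z w hw).isBounded)
  refine ⟨G 0, fun z hz => ?_⟩
  have := hconst z 0
  simp only [hG, hz, if_false] at this ⊢
  linear_combination this

lemma fN_hom (hs : h.Super L' N) (hodd : Odd (Fintype.card N)) {e : ℂ} {T : W.Point}
    (hT : IsTwo T e) : ∃ E : ℂ, ∀ z, z ∉ L'.lattice → fN N e (h.hom z) = ℘[L'] z - E := by
  obtain ⟨C, hC⟩ := hs.exists_const e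
  refine ⟨- C / kap N e, fun z hz => ?_⟩
  have hk := Isog.kap_ne_zero hodd hT
  rw [fN, ← hs.FF_eq e hz, hC z hz]
  field_simp
  ring

/-- half periods are zeros of `℘'` -/
lemma P'_half {L : PeriodPair} {t : ℂ} (ht : 2 * t ∈ L.lattice) : ℘'[L] t = 0 := by
  have h1 : ℘'[L] (-t + 2 * t) = ℘'[L] (-t) := L.derivWeierstrassP_add_coe (-t) ⟨_, ht⟩
  rw [L.derivWeierstrassP_neg] at h1
  have e : -t + 2 * t = t := by ring
  rw [e] at h1
  have h2 : (2:ℂ) * ℘'[L] t = 0 := by linear_combination h1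
  simpa using h2

lemma root_of_two (hs : h.Super L' N) (hodd : Odd (Fintype.card N)) {e : ℂ} {T : W.Point}
    (hT : IsTwo T e) {E : ℂ} (hE : ∀ z, z ∉ L'.lattice → fN N e (h.hom z) = ℘[L'] z - E) :
    4 * E ^ 3 - L'.g₂ * E - L'.g₃ = 0 := by
  classical
  have h2T : 2 • T = 0 := by rw [two_nsmul]; exact hT.add_self
  obtain ⟨t, ht, rfl⟩ := h.exists_of_torsion two_ne_zero h2T
  have htL : t ∉ L'.lattice := by
    rw [← hs.mem_iff]; exact hT.notMem hodd
  have h0 : fN N e (h.hom t) = 0 := by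
    have h00 : xc (h.hom t + ((0 : N) : W.Point)) - e = 0 := by
      rw [AddSubgroup.coe_zero, _root_.add_zero, hT.x, sub_self]
    rw [fN, Finset.prod_eq_zero (Finset.mem_univ (0 : N)) h00, zero_div]
  have h1 := hE t htL
  rw [h0] at h1
  have h2 := P'_sq L' htL
  have ht' : 2 * t ∈ L'.lattice := hs.le (by simpa using ht)
  rw [P'_half ht'] at h2
  have h3 : ℘[L'] t = E := by linear_combination -h1
  rw [h3] at h2
  linear_combination -h2

/-- three distinct roots determine a cubic -/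
lemma cubic_unique {A B E E' E'' : ℂ} (h1 : 4 * E ^ 3 - A * E - B = 0)
    (h2 : 4 * E' ^ 3 - A * E' - B = 0) (h3 : 4 * E'' ^ 3 - A * E'' - B = 0)
    (n1 : E' ≠ E) (n2 : E'' ≠ E) (n3 : E'' ≠ E') :
    E + E' + E'' = 0 ∧ A = -4 * (E * E' + E * E'' + E' * E'') ∧ B = 4 * E * E' * E'' := by
  have m1 : E' - E ≠ 0 := sub_ne_zero.mpr n1
  have m2 : E'' - E ≠ 0 := sub_ne_zero.mpr n2
  have m3 : E'' - E' ≠ 0 := sub_ne_zero.mpr n3
  have a1 : 4 * (E' ^ 2 + E' * E + E ^ 2) - A = 0 := by
    apply mul_left_cancel₀ m1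
    linear_combination h2 - h1
  have a2 : 4 * (E'' ^ 2 + E'' * E + E ^ 2) - A = 0 := by
    apply mul_left_cancel₀ m2
    linear_combination h3 - h1
  have a3 : E + E' + E'' = 0 := by
    apply mul_left_cancel₀ (mul_ne_zero (show (4:ℂ) ≠ 0 by norm_num) m3)
    linear_combination a2 - a1
  have e'' : E'' = - (E + E') := by linear_combination a3
  refine ⟨a3, ?_, ?_⟩
  · rw [e'']; linear_combination -a1
  · rw [e'']
    linear_combination -h1 + E * a1

/-- The invariants of the superlattice. -/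
theorem invariants (hs : h.Super L' N) (hodd : Odd (Fintype.card N)) {e e' e'' : ℂ}
    (hsp : Split W e e' e'') :
    ∃ E E' E'' : ℂ,
      E' - E = (e' - e) ^ (Fintype.card N) * kap N e'' / (kap N e' * kap N e) ∧
      E'' - E' = (e'' - e') ^ (Fintype.card N) * kap N e / (kap N e'' * kap N e') ∧
      E - E'' = (e - e'') ^ (Fintype.card N) * kap N e' / (kap N e * kap N e'') ∧
      E + E' + E'' = 0 ∧ L'.g₂ = -4 * (E * E' + E * E'' + E' * E'') ∧
      L'.g₃ = 4 * E * E' * E'' := by
  obtain ⟨T, hT⟩ := hsp.exists_two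
  obtain ⟨T', hT'⟩ := hsp.rot.exists_two
  obtain ⟨T'', hT''⟩ := hsp.rot.rot.exists_two
  obtain ⟨E, hE⟩ := hs.fN_hom hodd hT
  obtain ⟨E', hE'⟩ := hs.fN_hom hodd hT'
  obtain ⟨E'', hE''⟩ := hs.fN_hom hodd hT''
  have hk := Isog.kap_ne_zero hodd hT
  have hk' := Isog.kap_ne_zero hodd hT'
  have hk'' := Isog.kap_ne_zero hodd hT''
  have hz : L'.ω₁ / 2 ∉ L'.lattice := L'.ω₁_div_two_notMem_lattice
  have hP : h.hom (L'.ω₁ / 2) ∉ N := by rw [hs.mem_iff]; exact hz
  have f1 := hsp.fN_sub hodd hT hT' hP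
  have f2 := hsp.rot.fN_sub hodd hT' hT'' hP
  have f3 := hsp.rot.rot.fN_sub hodd hT'' hT hP
  rw [hE _ hz, hE' _ hz, hsp.fN_two hodd hT hT'] at f1
  rw [hE' _ hz, hE'' _ hz, hsp.rot.fN_two hodd hT' hT''] at f2
  rw [hE'' _ hz, hE _ hz, hsp.rot.rot.fN_two hodd hT'' hT] at f3
  have g1 : E' - E = (e' - e) ^ (Fintype.card N) * kap N e'' / (kap N e' * kap N e) := by
    linear_combination f1
  have g2 : E'' - E' = (e'' - e') ^ (Fintype.card N) * kap N e / (kap N e'' * kap N e') := by
    linear_combination f2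
  have g3 : E - E'' = (e - e'') ^ (Fintype.card N) * kap N e' / (kap N e * kap N e'') := by
    linear_combination f3
  have n1 : E' ≠ E := by
    rw [← sub_ne_zero, g1]
    exact div_ne_zero (mul_ne_zero (pow_ne_zero _ (sub_ne_zero.mpr hsp.ne₁.symm)) hk'')
      (mul_ne_zero hk' hk)
  have n2 : E'' ≠ E' := by
    rw [← sub_ne_zero, g2]
    exact div_ne_zero (mul_ne_zero (pow_ne_zero _ (sub_ne_zero.mpr hsp.ne₃.symm)) hk)
      (mul_ne_zero hk'' hk')
  have n3 : E ≠ E'' := by
    rw [← sub_ne_zero, g3]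
    exact div_ne_zero (mul_ne_zero (pow_ne_zero _ (sub_ne_zero.mpr hsp.ne₂)) hk')
      (mul_ne_zero hk hk'')
  obtain ⟨c1, c2, c3⟩ := cubic_unique (hs.root_of_two hodd hT hE) (hs.root_of_two hodd hT' hE')
    (hs.root_of_two hodd hT'' hE'') n1 n3.symm n2
  exact ⟨E, E', E'', g1, g2, g3, c1, c2, c3⟩

end Super

end Unif

end Fermat.Agent.Moduli
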