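import Fermat.Agent.Moduli.Addition
import Fermat.Agent.Isog.Basic
import Fermat.Agent.Torsion.Card

set_option autoImplicit false

open Filter Topology

open scoped PeriodPair

namespace Fermat.Agent.Moduli

open WeierstrassCurve WeierstrassCurve.Affine WeierstrassCurve.Affine.Point

variable {L : PeriodPair} {W : WeierstrassCurve.Affine ℂ}

/-- the lattice `L` uniformizes the Weierstrass curve `W`. -/
structure Unif (L : PeriodPair) (W : WeierstrassCurve.Affine ℂ) : Prop where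
  g₂ : L.g₂ = W.c₄ / 12
  g₃ : L.g₃ = W.c₆ / 216
  Δ : W.Δ ≠ 0

namespace Unif

variable (W) in
/-- the `x`-coordinate -/
noncomputable def px (L : PeriodPair) (z : ℂ) : ℂ := ℘[L] z - W.b₂ / 12

variable (W) in
/-- the `y`-coordinate -/
noncomputable def py (L : PeriodPair) (z : ℂ) : ℂ := (℘'[L] z - W.a₁ * px W L z - W.a₃) / 2

lemma equation (h : Unif L W) {z : ℂ} (hz : z ∉ L.lattice) :
    W.Equation (px W L z) (py W L z) := by
  rw [equation_iff]
  have e := P'_sq L hz
  rw [h.g₂, h.g₃] at e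
  simp only [c₄, c₆, b₂, b₄, b₆, px, py] at e ⊢
  linear_combination e / 4

lemma nonsingular (h : Unif L W) {z : ℂ} (hz : z ∉ L.lattice) :
    W.Nonsingular (px W L z) (py W L z) := by
  have : W.IsElliptic := ⟨isUnit_iff_ne_zero.mpr h.Δ⟩
  exact equation_iff_nonsingular.mp (h.equation hz)

open Classical in
/-- the uniformization map -/
noncomputable def φ (h : Unif L W) (z : ℂ) : W.Point :=
  if hz : z ∈ L.lattice then 0 else .some _ _ (h.nonsingular hz)

lemma φ_of_mem (h : Unif L W) {z : ℂ} (hz : z ∈ L.lattice) : h.φ z = 0 := by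
  simp [φ, hz]

lemma φ_of_notMem (h : Unif L W) {z : ℂ} (hz : z ∉ L.lattice) :
    h.φ z = .some _ _ (h.nonsingular hz) := by
  simp [φ, hz]

lemma φ_eq_zero_iff (h : Unif L W) {z : ℂ} : h.φ z = 0 ↔ z ∈ L.lattice := by
  constructor
  · intro h'
    by_contra hz
    rw [h.φ_of_notMem hz] at h'
    exact some_ne_zero _ h'
  · exact h.φ_of_mem

lemma φ_add_coe (h : Unif L W) (z : ℂ) {l : ℂ} (hl : l ∈ L.lattice) : h.φ (z + l) = h.φ z := by
  by_cases hz : z ∈ L.lattice
  · rw [h.φ_of_mem hz, h.φ_of_mem (add_mem hz hl)]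
  · have hz' : z + l ∉ L.lattice := fun h' => hz (by simpa using sub_mem h' hl)
    rw [h.φ_of_notMem hz, h.φ_of_notMem hz']
    have e1 : ℘[L] (z + l) = ℘[L] z := L.weierstrassP_add_coe z ⟨l, hl⟩
    have e2 : ℘'[L] (z + l) = ℘'[L] z := L.derivWeierstrassP_add_coe z ⟨l, hl⟩
    simp only [px, py, e1, e2]

lemma φ_neg (h : Unif L W) (z : ℂ) : h.φ (-z) = - h.φ z := by
  by_cases hz : z ∈ L.lattice
  · rw [h.φ_of_mem hz, h.φ_of_mem (neg_mem hz), _root_.neg_zero]
  · have hz' : -z ∉ L.lattice := fun h' => hz (by simpa using neg_mem h')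
    rw [h.φ_of_notMem hz, h.φ_of_notMem hz', neg_some]
    simp only [px, py, L.weierstrassP_neg, L.derivWeierstrassP_neg, negY]
    congr 1
    ring

lemma φ_add_of_ne (h : Unif L W) {u v : ℂ} (hu : u ∉ L.lattice) (hv : v ∉ L.lattice)
    (hne : ℘[L] u ≠ ℘[L] v) : h.φ (u + v) = h.φ u + h.φ v := by
  classical
  have huv := add_notMem L hne
  have hX : px W L u ≠ px W L v := fun e => hne (by simpa [px] using e)
  rw [h.φ_of_notMem hu, h.φ_of_notMem hv, h.φ_of_notMem huv, add_of_X_ne hX]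
  have hX' := sub_ne_zero.mpr hX
  have hne' := sub_ne_zero.mpr hne
  have hs : W.slope (px W L u) (px W L v) (py W L u) (py W L v) = (slp L u v - W.a₁) / 2 := by
    rw [slope_of_X_ne hX, slp, div_eq_iff hX']
    have : px W L u - px W L v = ℘[L] u - ℘[L] v := by simp [px]
    rw [this]
    field_simp
    simp only [px, py]
    ring
  have e1 := P_add L hu hv hne
  have e2 := P'_add L hu hv hne
  have hx : W.addX (px W L u) (px W L v) ((slp L u v - W.a₁) / 2) = px W L (u + v) := by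
    simp only [addX, px]
    rw [e1]
    simp only [b₂]
    ring
  simp only [hs]
  congr 1
  · exact hx.symm
  · rw [addY, negAddY, hx]
    simp only [negY, py]
    rw [e2]
    simp only [px]
    ring

/-- Generic choice of an auxiliary point. -/
lemma exists_generic {u v : ℂ} (hu : u ∉ L.lattice) (hv : v ∉ L.lattice)
    (huv : u + v ∉ L.lattice) (heq : ℘[L] u = ℘[L] v) :
    ∃ w, w ∉ L.lattice ∧ u + w ∉ L.lattice ∧ v - w ∉ L.lattice ∧
      ℘[L] u ≠ ℘[L] w ∧ ℘[L] v ≠ ℘[L] w ∧ ℘[L] (u + w) ≠ ℘[L] (v - w) := by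
  have hnu : -u ∉ L.lattice := fun h' => hu (by simpa using neg_mem h')
  -- `w → -u`
  have c0 : ∀ᶠ w in 𝓝[≠] (-u), w ∉ L.lattice := eventually_notMem_lattice L (-u)
  have c1 : ∀ᶠ w in 𝓝[≠] (-u), ℘[L] w ≠ ℘[L] u := eventually_P_ne L hnu _
  have tshift : Tendsto (fun w : ℂ => u + w) (𝓝[≠] (-u)) (𝓝[≠] 0) := by
    refine tendsto_nhdsWithin_iff.mpr ⟨?_, ?_⟩
    · have : ContinuousAt (fun w : ℂ => u + w) (-u) := by fun_prop
      have h2 := this.tendsto
      simp only [add_neg_cancel] at h2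
      exact h2.mono_left nhdsWithin_le_nhds
    · filter_upwards [self_mem_nhdsWithin] with w hw
      intro h0
      apply hw
      have : u + w = 0 := h0
      show w = -u
      linear_combination this
  have c2 : ∀ᶠ w in 𝓝[≠] (-u), u + w ∉ L.lattice :=
    tshift.eventually (eventually_notMem_lattice L 0)
  have c3 : ∀ᶠ w in 𝓝[≠] (-u), v - w ∉ L.lattice := by
    have hc : ContinuousAt (fun w : ℂ => v - w) (-u) := by fun_prop
    have this : v - -u ∉ L.lattice := by
      rw [sub_neg_eq_add, add_comm]; exact huv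
    exact (hc.eventually (eventually_notMem_lattice' L this)).filter_mono nhdsWithin_le_nhds
  have c4 : ∀ᶠ w in 𝓝[≠] (-u), ℘[L] (u + w) ≠ ℘[L] (v - w) := by
    have hc : ContinuousAt (fun w : ℂ => ℘[L] (v - w)) (-u) := by
      refine ContinuousAt.comp (g := ℘[L]) ?_ (by fun_prop)
      have : v - -u ∉ L.lattice := by
        rw [sub_neg_eq_add, add_comm]; exact huv
      exact (analyticAt_P L this).continuousAt
    have hb : ∀ᶠ w in 𝓝[≠] (-u), ‖℘[L] (v - w)‖ < ‖℘[L] (v - -u)‖ + 1 :=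
      ((hc.norm.tendsto).eventually_lt_const (by simp)).filter_mono nhdsWithin_le_nhds
    filter_upwards [hb, ((tendsto_P_zero L).comp tshift).eventually_gt_atTop
      (‖℘[L] (v - -u)‖ + 1)] with z h1 h2 h3
    simp only [Function.comp_apply] at h2
    rw [h3] at h2
    linarith
  obtain ⟨w, h0, h1, h2, h3, h4⟩ := (c0.and (c1.and (c2.and (c3.and c4)))).exists
  exact ⟨w, h0, h2, h3, h1.symm, heq ▸ h1.symm, h4⟩

theorem φ_add (h : Unif L W) (u v : ℂ) : h.φ (u + v) = h.φ u + h.φ v := by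
  by_cases hu : u ∈ L.lattice
  · rw [add_comm, h.φ_add_coe v hu, h.φ_of_mem hu, _root_.zero_add]
  by_cases hv : v ∈ L.lattice
  · rw [h.φ_add_coe u hv, h.φ_of_mem hv, _root_.add_zero]
  by_cases huv : u + v ∈ L.lattice
  · rw [h.φ_of_mem huv]
    have : h.φ v = - h.φ u := by
      rw [← h.φ_neg, ← h.φ_add_coe (-u) huv]
      congr 1; ring
    rw [this, add_neg_cancel]
  by_cases hne : ℘[L] u = ℘[L] v
  · obtain ⟨w, h0, h1, h2, h3, h4, h5⟩ := exists_generic hu hv huv hne
    have hw' : -w ∉ L.lattice := fun h' => h0 (by simpa using neg_mem h')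
    have e : u + v = (u + w) + (v - w) := by ring
    rw [e, h.φ_add_of_ne h1 h2 h5, h.φ_add_of_ne hu h0 h3, sub_eq_add_neg,
      h.φ_add_of_ne hv hw' (by rwa [L.weierstrassP_neg]), h.φ_neg]
    abel
  · exact h.φ_add_of_ne hu hv hne

/-- the uniformization homomorphism -/
noncomputable def hom (h : Unif L W) : ℂ →+ W.Point where
  toFun := h.φ
  map_zero' := h.φ_of_mem (zero_mem _)
  map_add' := h.φ_add

@[simp] lemma hom_apply (h : Unif L W) (z : ℂ) : h.hom z = h.φ z := rfl

lemma hom_ker (h : Unif L W) {z : ℂ} : h.hom z = 0 ↔ z ∈ L.lattice := h.φ_eq_zero_iff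

lemma xc_hom (h : Unif L W) {z : ℂ} (hz : z ∉ L.lattice) :
    Isog.xc (h.hom z) = ℘[L] z - W.b₂ / 12 := by
  rw [hom_apply, h.φ_of_notMem hz]; rfl

lemma eta_hom (h : Unif L W) {z : ℂ} (hz : z ∉ L.lattice) :
    Isog.eta (h.hom z) = ℘'[L] z := by
  rw [hom_apply, h.φ_of_notMem hz, Isog.eta_some, py]
  ring

/-- all torsion points are in the image -/
theorem exists_of_torsion (h : Unif L W) {n : ℕ} (hn : n ≠ 0) {P : W.Point} (hP : n • P = 0) :
    ∃ z : ℂ, n * z ∈ L.lattice ∧ h.hom z = P := by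
  have hcard : Nat.card {P : W.Point // n • P = 0} = n ^ 2 :=
    Torsion.card_torsion (K := ℂ) (W := W) h.Δ (by exact_mod_cast hn)
  have hnC : (n : ℂ) ≠ 0 := by exact_mod_cast hn
  let g : Fin n × Fin n → ℂ := fun ij => ((ij.1 : ℕ) * L.ω₁ + (ij.2 : ℕ) * L.ω₂) / n
  have hg : ∀ ij, (n : ℂ) * g ij ∈ L.lattice := by
    intro ij
    have e : (n : ℂ) * g ij = ((ij.1 : ℕ) : ℚ) * L.ω₁ + ((ij.2 : ℕ) : ℚ) * L.ω₂ := by
      simp only [g]
      push_cast
      field_simp
    rw [e, PeriodPair.mul_ω₁_add_mul_ω₂_mem_lattice]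
    simp
  let f : Fin n × Fin n → {P : W.Point // n • P = 0} := fun ij =>
    ⟨h.hom (g ij), by
      rw [← map_nsmul, hom_ker, nsmul_eq_mul]
      exact hg ij⟩
  have hf : Function.Injective f := by
    rintro ⟨i, j⟩ ⟨i', j'⟩ hij
    have h1 : h.hom (g (i, j) - g (i', j')) = 0 := by
      rw [map_sub, sub_eq_zero]
      exact congrArg Subtype.val hij
    rw [hom_ker] at h1
    have e : g (i, j) - g (i', j') = ((((i : ℕ) : ℚ) - ((i' : ℕ) : ℚ)) / n : ℚ) * L.ω₁ +
        ((((j : ℕ) : ℚ) - ((j' : ℕ) : ℚ)) / n : ℚ) * L.ω₂ := by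
      simp only [g]
      push_cast
      field_simp
      ring
    rw [e, PeriodPair.mul_ω₁_add_mul_ω₂_mem_lattice] at h1
    have key : ∀ a b : Fin n, ((((a : ℕ) : ℚ) - ((b : ℕ) : ℚ)) / n).den = 1 → a = b := by
      intro a b hab
      have hq : ((((a : ℕ) : ℚ) - ((b : ℕ) : ℚ)) / n) =
          (((((a : ℕ) : ℚ) - ((b : ℕ) : ℚ)) / n).num : ℚ) := ((Rat.den_eq_one_iff _).mp hab).symm
      set m := ((((a : ℕ) : ℚ) - ((b : ℕ) : ℚ)) / n).num
      have hn0 : (n : ℚ) ≠ 0 := by exact_mod_cast hn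
      rw [div_eq_iff hn0] at hq
      have hz : ((a : ℕ) : ℤ) - ((b : ℕ) : ℤ) = m * n := by exact_mod_cast hq
      have ha := a.2
      have hb := b.2
      have hm : m = 0 := by
        by_contra hm0
        have h2 : (n : ℤ) ≤ |m * n| := by
          rw [abs_mul, Nat.abs_cast]
          have := Int.one_le_abs hm0
          nlinarith
        rw [← hz] at h2
        have h3 : |((a : ℕ) : ℤ) - ((b : ℕ) : ℤ)| < n := by
          rw [abs_lt]
          constructor <;> omega
        omega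
      rw [hm] at hz
      ext
      omega
    exact Prod.ext (key i i' h1.1) (key j j' h1.2)
  have : Finite {P : W.Point // n • P = 0} :=
    Nat.finite_of_card_ne_zero (by rw [hcard]; positivity)
  letI : Fintype {P : W.Point // n • P = 0} := Fintype.ofFinite _
  have hb : Function.Bijective f := by
    rw [Fintype.bijective_iff_injective_and_card]
    refine ⟨hf, ?_⟩
    rw [← Nat.card_eq_fintype_card (α := {P : W.Point // n • P = 0}), hcard]
    simp [sq]
  obtain ⟨ij, hij⟩ := hb.2 ⟨P, hP⟩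
  exact ⟨g ij, hg ij, congrArg Subtype.val hij⟩

end Unif

end Fermat.Agent.Moduli
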