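import Fermat.Agent.Moduli.Super
import Fermat.Agent.JLevelOne.Order
import Fermat.Agent.X0Emb.LExp

set_option autoImplicit false

open UpperHalfPlane ModularForm EisensteinSeries

open scoped PeriodPair

noncomputable section

namespace Fermat.Agent.Moduli

open Fermat.Agent.JLevelOne (jFun)

/-- the period pair `(α, α τ)`. -/
def mkPP (α : ℂ) (hα : α ≠ 0) (τ : ℍ) : PeriodPair where
  ω₁ := α
  ω₂ := α * τ
  indep := by
    rw [LinearIndependent.pair_iff]
    intro s t h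
    simp only [Complex.real_smul] at h
    have h1 : (s : ℂ) + t * τ = 0 := by
      apply mul_left_cancel₀ hα
      linear_combination h
    have h2 := congrArg Complex.im h1
    have h3 := congrArg Complex.re h1
    simp only [Complex.add_im, Complex.ofReal_im, Complex.re_ofReal_mul, Complex.im_ofReal_mul,
      Complex.add_re, Complex.ofReal_re, Complex.zero_im, Complex.zero_re, zero_add] at h2 h3
    have ht : t = 0 := by
      rcases mul_eq_zero.mp h2 with h | h
      · exact h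
      · exact absurd h τ.im_pos.ne'
    rw [ht] at h3
    exact ⟨by simpa using h3, ht⟩

@[simp] lemma mkPP_ω₁ (α : ℂ) (hα : α ≠ 0) (τ : ℍ) : (mkPP α hα τ).ω₁ = α := rfl
@[simp] lemma mkPP_ω₂ (α : ℂ) (hα : α ≠ 0) (τ : ℍ) : (mkPP α hα τ).ω₂ = α * τ := rfl

lemma mem_mkPP {α : ℂ} {hα : α ≠ 0} {τ : ℍ} {z : ℂ} :
    z ∈ (mkPP α hα τ).lattice ↔ ∃ m n : ℤ, m * α + n * (α * τ) = z := PeriodPair.mem_lattice

/-- Eisenstein series of a sublattice -/
def Glat (M : Submodule ℤ ℂ) (n : ℕ) : ℂ := ∑' l : M, ((l : ℂ) ^ n)⁻¹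

lemma G_eq_Glat (L : PeriodPair) (n : ℕ) : L.G n = Glat L.lattice n := rfl

lemma G_congr {L L' : PeriodPair} (h : L.lattice = L'.lattice) (n : ℕ) : L.G n = L'.G n := by
  rw [G_eq_Glat, G_eq_Glat, h]

lemma G_mkPP (α : ℂ) (hα : α ≠ 0) (τ : ℍ) {n : ℕ} (hn : 3 ≤ n) :
    (mkPP α hα τ).G n = (α ^ n)⁻¹ * (2 * riemannZeta n * E hn τ) := by
  have h1 := tsum_eisSummand_eq_riemannZeta_mul_eisensteinSeries hn τ
  have h2 : E hn τ = (1 / 2 : ℂ) * eisensteinSeries (N := 1) 0 n τ := rfl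
  have h3 : 2 * riemannZeta n * E hn τ = ∑' v : Fin 2 → ℤ, eisSummand n v τ := by
    rw [h1, h2]; ring
  rw [h3, PeriodPair.G, ← (mkPP α hα τ).latticeEquivProd.symm.toEquiv.tsum_eq,
    ← (finTwoArrowEquiv ℤ).symm.tsum_eq, ← (Equiv.prodComm ℤ ℤ).tsum_eq, ← tsum_mul_left]
  refine tsum_congr fun x => ?_
  have e : (((mkPP α hα τ).latticeEquivProd.symm.toEquiv (Equiv.prodComm ℤ ℤ x) :
      (mkPP α hα τ).lattice) : ℂ) = α * (x.1 * τ + x.2) := by
    have := (mkPP α hα τ).latticeEquiv_symm_apply (Equiv.prodComm ℤ ℤ x)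
    simp only [mkPP_ω₁, mkPP_ω₂] at this
    rw [show (((mkPP α hα τ).latticeEquivProd.symm.toEquiv (Equiv.prodComm ℤ ℤ x) :
      (mkPP α hα τ).lattice) : ℂ) =
      ((mkPP α hα τ).latticeEquivProd.symm (Equiv.prodComm ℤ ℤ x)).1 from rfl, this]
    simp only [Equiv.prodComm_apply, Prod.fst_swap, Prod.snd_swap]
    ring
  rw [e, mul_pow, mul_inv]
  congr 1
  simp [eisSummand, finTwoArrowEquiv]

lemma riemannZeta_six : riemannZeta 6 = (Real.pi : ℂ) ^ 6 / 945 := by
  have h := riemannZeta_two_mul_nat (k := 3) (by norm_num)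
  have hb : bernoulli 6 = 1 / 42 := by
    rw [bernoulli_eq_bernoulli'_of_ne_one (by norm_num), bernoulli'_def]
    have h5 : bernoulli' 5 = 0 := bernoulli'_eq_zero_of_odd (by decide) (by norm_num)
    norm_num [Finset.sum_range_succ, Finset.sum_range_succ', Nat.choose, h5]
  norm_num [hb, Nat.factorial] at h
  rw [h]
  ring

lemma g₂_mkPP (α : ℂ) (hα : α ≠ 0) (τ : ℍ) :
    (mkPP α hα τ).g₂ = (2 * Real.pi / α) ^ 4 * E₄ τ / 12 := by
  rw [PeriodPair.g₂, G_mkPP α hα τ (by norm_num : 3 ≤ 4)]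
  have := riemannZeta_four
  push_cast
  rw [this]
  field_simp
  ring

lemma g₃_mkPP (α : ℂ) (hα : α ≠ 0) (τ : ℍ) :
    (mkPP α hα τ).g₃ = (2 * Real.pi / α) ^ 6 * E₆ τ / 216 := by
  rw [PeriodPair.g₃, G_mkPP α hα τ (by norm_num : 3 ≤ 6)]
  have := riemannZeta_six
  push_cast
  rw [this]
  field_simp
  ring

lemma two_pi_ne_zero' : (2 * Real.pi : ℂ) ≠ 0 := by
  exact_mod_cast Real.two_pi_pos.ne'

/-- every elliptic curve over `ℂ` is uniformized by a lattice. -/
theorem exists_unif (W : WeierstrassCurve.Affine ℂ) (hΔ : W.Δ ≠ 0) :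
    ∃ L : PeriodPair, Unif L W := by
  obtain ⟨τ, hτ⟩ := JLevelOne.jFun_surjective (W.c₄ ^ 3 / W.Δ)
  have hrel := W.c_relation
  have hd := discriminant_eq_E₄_cube_sub_E₆_sq τ
  have hd0 := discriminant_ne_zero τ
  have hj : E₄ τ ^ 3 * W.Δ = W.c₄ ^ 3 * discriminant τ := by
    rw [jFun, div_eq_div_iff hd0 hΔ] at hτ
    exact hτ
  have hj6 : E₆ τ ^ 2 * W.Δ = W.c₆ ^ 2 * discriminant τ := by
    linear_combination hj + 1728 * W.Δ * hd - discriminant τ * hrel
  have key : ∃ t : ℂ, t ≠ 0 ∧ W.c₄ = t ^ 4 * E₄ τ ∧ W.c₆ = t ^ 6 * E₆ τ := by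
    have hcc : W.c₄ ^ 3 * E₆ τ ^ 2 = W.c₆ ^ 2 * E₄ τ ^ 3 := by
      have h1 : W.Δ * discriminant τ * (W.c₄ ^ 3 * E₆ τ ^ 2 - W.c₆ ^ 2 * E₄ τ ^ 3) = 0 := by
        linear_combination W.c₄ ^ 3 * discriminant τ * hj6 - W.c₆ ^ 2 * discriminant τ * hj
      rcases mul_eq_zero.mp h1 with h | h
      · rcases mul_eq_zero.mp h with h | h
        · exact absurd h hΔ
        · exact absurd h hd0
      · linear_combination h
    by_cases h4 : W.c₄ = 0
    · have hE4 : E₄ τ = 0 := by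
        rw [h4] at hj
        have : E₄ τ ^ 3 * W.Δ = 0 := by linear_combination hj
        rcases mul_eq_zero.mp this with h | h
        · exact pow_eq_zero_iff (three_ne_zero) |>.mp h
        · exact absurd h hΔ
      have hE6 : E₆ τ ≠ 0 := by
        intro h
        apply hd0
        rw [hd, hE4, h]; ring
      have h6 : W.c₆ ≠ 0 := by
        intro h
        apply hΔ
        rw [h4, h] at hrel
        linear_combination hrel / 1728
      obtain ⟨t, ht⟩ := IsAlgClosed.exists_pow_nat_eq (W.c₆ / E₆ τ) (n := 6) (by norm_num)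
      refine ⟨t, ?_, ?_, ?_⟩
      · rintro rfl
        have : W.c₆ / E₆ τ = 0 := by rw [← ht]; norm_num
        exact (div_ne_zero h6 hE6) this
      · rw [h4, hE4]; ring
      · rw [ht]; field_simp
    by_cases h6 : W.c₆ = 0
    · have hE6 : E₆ τ = 0 := by
        rw [h6] at hj6
        have : E₆ τ ^ 2 * W.Δ = 0 := by linear_combination hj6
        rcases mul_eq_zero.mp this with h | h
        · exact pow_eq_zero_iff (two_ne_zero) |>.mp h
        · exact absurd h hΔ
      have hE4 : E₄ τ ≠ 0 := by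
        intro h
        apply hd0
        rw [hd, hE6, h]; ring
      obtain ⟨t, ht⟩ := IsAlgClosed.exists_pow_nat_eq (W.c₄ / E₄ τ) (n := 4) (by norm_num)
      refine ⟨t, ?_, ?_, ?_⟩
      · rintro rfl
        have : W.c₄ / E₄ τ = 0 := by rw [← ht]; norm_num
        exact (div_ne_zero h4 hE4) this
      · rw [ht]; field_simp
      · rw [h6, hE6]; ring
    have hE4 : E₄ τ ≠ 0 := by
      intro h
      rw [h] at hj
      have : W.c₄ ^ 3 * discriminant τ = 0 := by linear_combination -hj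
      rcases mul_eq_zero.mp this with h | h
      · exact h4 (pow_eq_zero_iff (three_ne_zero) |>.mp h)
      · exact hd0 h
    have hE6 : E₆ τ ≠ 0 := by
      intro h
      rw [h] at hj6
      have : W.c₆ ^ 2 * discriminant τ = 0 := by linear_combination -hj6
      rcases mul_eq_zero.mp this with h | h
      · exact h6 (pow_eq_zero_iff (two_ne_zero) |>.mp h)
      · exact hd0 h
    obtain ⟨t, ht⟩ := IsAlgClosed.exists_pow_nat_eq (W.c₆ / W.c₄ * (E₄ τ / E₆ τ)) (n := 2)
      (by norm_num)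
    have ht4 : W.c₄ = t ^ 4 * E₄ τ := by
      have : t ^ 4 = (t ^ 2) ^ 2 := by ring
      rw [this, ht]
      field_simp
      linear_combination hcc
    refine ⟨t, ?_, ht4, ?_⟩
    · rintro rfl
      exact (mul_ne_zero (div_ne_zero h6 h4) (div_ne_zero hE4 hE6)) (by rw [← ht]; norm_num)
    · have : t ^ 6 * E₆ τ = (t ^ 4 * E₄ τ) * t ^ 2 * E₆ τ / E₄ τ := by field_simp
      rw [this, ← ht4, ht]
      field_simp
  obtain ⟨t, ht0, ht4, ht6⟩ := key
  have hα : (2 * Real.pi / t : ℂ) ≠ 0 := div_ne_zero two_pi_ne_zero' ht0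
  refine ⟨mkPP (2 * Real.pi / t) hα τ, ?_, ?_, hΔ⟩
  · rw [g₂_mkPP, ht4]
    have := two_pi_ne_zero'
    congr 2
    field_simp
  · rw [g₃_mkPP, ht6]
    have := two_pi_ne_zero'
    congr 2
    field_simp

end Fermat.Agent.Moduli
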