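import Fermat.Agent.Moduli.Unit
import Fermat.Agent.MW.Cusp
import Fermat.Agent.FF.AlgClosed
import Fermat.Agent.TwoGauss.AtkinLehner
import Fermat.Agent.TwoGauss.Residue

/-!
# The two cusps of `X₀(p)` and the divisors of `j`, `j_p` and `u = Δ(q)/Δ(q^p)`
-/

set_option autoImplicit false

open ModularCurve AlgebraicCurve IntermediateField

noncomputable section

namespace Fermat.Agent.Moduli

section QPlace

variable {k : Type*} [Field k] {F : IntermediateField k (LaurentSeries k)}

theorem order_zpow (x : LaurentSeries k) (n : ℤ) : (x ^ n).order = n * x.order := by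
  obtain ⟨m, rfl | rfl⟩ := n.eq_nat_or_neg
  · rw [zpow_natCast, HahnSeries.order_pow, nsmul_eq_mul]
  · rw [zpow_neg, MW.order_inv', zpow_natCast, HahnSeries.order_pow, nsmul_eq_mul]; simp

/-- The `q`-adic place of a field of Laurent series: the order is the order in `q`. -/
theorem ord_infPlace (hF : ∃ x : F, (x : LaurentSeries k).order < 0) {t : F}
    (ht : (t : LaurentSeries k).order = 1) (f : F) :
    (MW.infPlace F hF).ord f = (f : LaurentSeries k).order := by
  rcases eq_or_ne f 0 with rfl | hf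
  · rw [Place.ord_zero, ZeroMemClass.coe_zero, HahnSeries.order_zero]
  have ht0 : (t : LaurentSeries k) ≠ 0 := by
    rintro h; rw [h, HahnSeries.order_zero] at ht; exact zero_ne_one ht
  have hf0 : (f : LaurentSeries k) ≠ 0 := by simpa using hf
  set v := MW.infPlace F hF with hv
  have hmem : ∀ {x : F}, x ∈ v.toValuationSubring ↔
      (x : LaurentSeries k) = 0 ∨ 0 ≤ (x : LaurentSeries k).order := fun {x} => Iff.rfl
  have htm : t ∈ v.toValuationSubring := hmem.mpr (Or.inr (by rw [ht]; exact zero_le_one))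
  have hunit : ∀ {x : F} (hx : x ∈ v.toValuationSubring), (x : LaurentSeries k) ≠ 0 →
      ((x : LaurentSeries k).order = 0 ↔ IsUnit (⟨x, hx⟩ : v.toValuationSubring)) := by
    intro x hx hx0
    constructor
    · intro h
      have hxi : x⁻¹ ∈ v.toValuationSubring := hmem.mpr (Or.inr (by
        rw [show ((x⁻¹ : F) : LaurentSeries k) = (x : LaurentSeries k)⁻¹ from rfl,
          MW.order_inv', h, neg_zero]))
      refine IsUnit.of_mul_eq_one ⟨x⁻¹, hxi⟩ (Subtype.ext ?_)
      exact mul_inv_cancel₀ (by simpa using hx0)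
    · intro h
      obtain ⟨y, hy⟩ := h.exists_right_inv
      have h1 : (x : LaurentSeries k) * ((y : F) : LaurentSeries k) = 1 :=
        congrArg (fun z : v.toValuationSubring => ((z : F) : LaurentSeries k)) hy
      have hy0 : ((y : F) : LaurentSeries k) ≠ 0 := right_ne_zero_of_mul_eq_one h1
      have h2 := congrArg HahnSeries.order h1
      rw [HahnSeries.order_mul hx0 hy0, HahnSeries.order_one] at h2
      have h3 := (hmem.mp hx).resolve_left hx0
      have h4 := (hmem.mp y.2).resolve_left hy0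
      omega
  have hirr : Irreducible (⟨t, htm⟩ : v.toValuationSubring) := by
    refine ⟨fun h => ?_, ?_⟩
    · have := (hunit htm ht0).mpr h
      rw [ht] at this; exact one_ne_zero this
    · rintro a b hab
      have h1 : (t : LaurentSeries k) = ((a : F) : LaurentSeries k) * ((b : F) : LaurentSeries k) :=
        congrArg (fun z : v.toValuationSubring => ((z : F) : LaurentSeries k)) hab
      have ha0 : ((a : F) : LaurentSeries k) ≠ 0 := by
        intro h; rw [h, zero_mul] at h1; exact ht0 h1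
      have hb0 : ((b : F) : LaurentSeries k) ≠ 0 := by
        intro h; rw [h, mul_zero] at h1; exact ht0 h1
      have h2 := congrArg HahnSeries.order h1
      rw [HahnSeries.order_mul ha0 hb0, ht] at h2
      have h3 := (hmem.mp a.2).resolve_left ha0
      have h4 := (hmem.mp b.2).resolve_left hb0
      by_cases h5 : ((a : F) : LaurentSeries k).order = 0
      · left; exact (hunit a.2 ha0).mp h5
      · right; exact (hunit b.2 hb0).mp (by omega)
  -- `f = u t ^ n`
  set n := (f : LaurentSeries k).order with hn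
  have hzp : ((t ^ n : F) : LaurentSeries k) = (t : LaurentSeries k) ^ n := by
    exact map_zpow₀ (algebraMap F (LaurentSeries k)) t n
  have hu0 : ((f * (t ^ n)⁻¹ : F) : LaurentSeries k) ≠ 0 := by
    have : f * (t ^ n)⁻¹ ≠ 0 := mul_ne_zero hf (inv_ne_zero (zpow_ne_zero _ (by simpa using ht0)))
    simpa using this
  have hu1 : ((f * (t ^ n)⁻¹ : F) : LaurentSeries k).order = 0 := by
    rw [show ((f * (t ^ n)⁻¹ : F) : LaurentSeries k) =
      (f : LaurentSeries k) * ((t : LaurentSeries k) ^ n)⁻¹ by rw [← hzp]; rfl,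
      HahnSeries.order_mul hf0 (inv_ne_zero (zpow_ne_zero _ ht0)), MW.order_inv',
      order_zpow, ht]
    omega
  have hum : f * (t ^ n)⁻¹ ∈ v.toValuationSubring := hmem.mpr (Or.inr hu1.ge)
  have hu2 := (hunit hum hu0).mp hu1
  have key : f = ((hu2.unit : v.toValuationSubring) : F) *
      (((⟨t, htm⟩ : v.toValuationSubring) : F) ^ n) := by
    rw [IsUnit.unit_spec]
    change f = f * (t ^ n)⁻¹ * t ^ n
    rw [inv_mul_cancel_right₀ (zpow_ne_zero _ (by simpa using ht0))]
  conv_lhs => rw [key]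
  exact v.ord_unit_smul_zpow hu2.unit hirr n

end QPlace


section Integral

variable {K F : Type*} [Field K] [Field F] [Algebra K F]

/-- An element integral over `ℤ[j]` lies in every valuation ring containing `j`. -/
theorem mem_of_monic (v : ValuationSubring F) {j y : F} (hj : j ∈ v)
    {H : Polynomial (Polynomial ℤ)} (hH : H.Monic)
    (h : H.eval₂ (Polynomial.eval₂RingHom (Int.castRingHom F) j) y = 0) : y ∈ v := by
  set φ : Polynomial ℤ →+* v := Polynomial.eval₂RingHom (Int.castRingHom v) ⟨j, hj⟩ with hφ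
  have h1 : (algebraMap v F).comp φ = Polynomial.eval₂RingHom (Int.castRingHom F) j := by
    refine Polynomial.ringHom_ext' (RingHom.ext_int _ _) ?_
    simp [hφ]
  have h2 : IsIntegral v y := by
    refine ⟨H.map φ, hH.map φ, ?_⟩
    rw [Polynomial.eval₂_map, h1]
    exact h
  obtain ⟨z, hz⟩ := IsIntegrallyClosed.isIntegral_iff.mp h2
  rw [← hz]
  exact z.2

end Integral

section Cusps

/-- the algebraic numbers -/
local notation "𝕂" => AlgebraicClosure ℚ

variable (p : ℕ) [hp : Fact p.Prime]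

/-- `j(q^p)` as an element of the function field of `X₀(p)` -/
def jpF : modularFunctionFieldBar p := ⟨TwoGauss.jd 𝕂 p, TwoGauss.jd_mem 𝕂 p dvd_rfl⟩

/-- `Δ(q)/Δ(q^p)` as an element of the function field of `X₀(p)` -/
def uF : modularFunctionFieldBar p := ⟨uSer p 𝕂, uSer_mem p⟩

@[simp] theorem coe_jpF : ((jpF p : modularFunctionFieldBar p) : LaurentSeries 𝕂) =
    qExpand 𝕂 p (jqModC 𝕂) := rfl

@[simp] theorem coe_uF : ((uF p : modularFunctionFieldBar p) : LaurentSeries 𝕂) = uSer p 𝕂 := rfl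

omit hp in
theorem coe_jF' : ((X0Emb.jF p : modularFunctionFieldBar p) : LaurentSeries 𝕂) = jqModC 𝕂 :=
  X0Emb.coe_jF p

theorem exists_alAux {M : ℕ} [NeZero M] (hM : M = 1 * p) (h1 : 1 ∣ M) (h2 : p ∣ M) :
    ∃ w : TwoGauss.FB 𝕂 M ≃ₐ[𝕂] TwoGauss.FB 𝕂 M,
      w ⟨TwoGauss.jd 𝕂 1, TwoGauss.jd_mem 𝕂 M h1⟩ = ⟨TwoGauss.jd 𝕂 p, TwoGauss.jd_mem 𝕂 M h2⟩ ∧
      ∀ f, w (w f) = f := by
  subst hM
  have hm : ¬ p ∣ 1 := hp.out.one_lt.ne' ∘ Nat.dvd_one.mp
  refine ⟨TwoGauss.wq hp.out hm, ?_, TwoGauss.wq_wq hp.out hm⟩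
  have h := TwoGauss.wq_jdB hp.out hm (TwoGauss.oneDv (1 * p))
  rw [TwoGauss.swapD_oneDv] at h
  exact h

theorem exists_al : ∃ w : modularFunctionFieldBar p ≃ₐ[𝕂] modularFunctionFieldBar p,
    w (X0Emb.jF p) = jpF p ∧ ∀ f, w (w f) = f := by
  obtain ⟨w, h1, h2⟩ := exists_alAux p (one_mul p).symm (one_dvd p) dvd_rfl
  refine ⟨w, ?_, h2⟩
  have e : X0Emb.jF p = (⟨TwoGauss.jd 𝕂 1, TwoGauss.jd_mem 𝕂 p (one_dvd p)⟩ :
      modularFunctionFieldBar p) := by
    apply Subtype.ext
    rw [coe_jF']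
    exact (qExpand_one_apply _).symm
  rw [e]
  exact h1

/-- The Atkin–Lehner involution of the function field of `X₀(p)`. -/
def wF : modularFunctionFieldBar p ≃ₐ[𝕂] modularFunctionFieldBar p := (exists_al p).choose

@[simp] theorem wF_jF : wF p (X0Emb.jF p) = jpF p := (exists_al p).choose_spec.1

@[simp] theorem wF_wF (f : modularFunctionFieldBar p) : wF p (wF p f) = f :=
  (exists_al p).choose_spec.2 f

@[simp] theorem wF_jpF : wF p (jpF p) = X0Emb.jF p := by rw [← wF_jF, wF_wF]

/-- The cusp `0` of `X₀(p)`. -/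
def cuspZero : Place 𝕂 (modularFunctionFieldBar p) := wF p • MW.cuspInf p

theorem ord_wF_smul (x : Place 𝕂 (modularFunctionFieldBar p)) (f : modularFunctionFieldBar p) :
    (wF p • x).ord f = x.ord (wF p f) := by
  rw [← Place.ord_smul (wF p) x (wF p f), wF_wF]

theorem wF_smul_smul (x : Place 𝕂 (modularFunctionFieldBar p)) : wF p • wF p • x = x := by
  rw [← mul_smul]
  have : wF p * wF p = 1 := AlgEquiv.ext fun f => wF_wF p f
  rw [this, one_smul]

theorem ord_cuspInf (f : modularFunctionFieldBar p) :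
    (MW.cuspInf p).ord f = (f : LaurentSeries 𝕂).order := by
  refine ord_infPlace (MW.exists_order_neg p) (t := (X0Emb.jF p)⁻¹) ?_ f
  rw [show (((X0Emb.jF p)⁻¹ : modularFunctionFieldBar p) : LaurentSeries 𝕂) =
    ((X0Emb.jF p : modularFunctionFieldBar p) : LaurentSeries 𝕂)⁻¹ from rfl, coe_jF',
    MW.order_inv', X0Emb.order_jqModC, neg_neg]

theorem ord_inf_j : (MW.cuspInf p).ord (X0Emb.jF p) = -1 := by
  rw [ord_cuspInf, coe_jF', X0Emb.order_jqModC]

theorem ord_inf_jp : (MW.cuspInf p).ord (jpF p) = -p := by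
  rw [ord_cuspInf, coe_jpF, X0Emb.order_qExpand, X0Emb.order_jqModC]; ring

theorem ord_inf_u : (MW.cuspInf p).ord (uF p) = 1 - p := by
  rw [ord_cuspInf, coe_uF, uSer, Igusa.order_unit]

theorem ord_zero_j : (cuspZero p).ord (X0Emb.jF p) = -p := by
  rw [cuspZero, ord_wF_smul, wF_jF, ord_inf_jp]

theorem ord_zero_jp : (cuspZero p).ord (jpF p) = -1 := by
  rw [cuspZero, ord_wF_smul, wF_jpF, ord_inf_j]

theorem cuspZero_ne : cuspZero p ≠ MW.cuspInf p := by
  intro h
  have h1 := ord_zero_j p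
  rw [h, ord_inf_j] at h1
  have := hp.out.one_lt
  omega

theorem jF_ne_zero : X0Emb.jF p ≠ (0 : modularFunctionFieldBar p) := by
  intro h
  have := ord_inf_j p
  rw [h, Place.ord_zero] at this
  norm_num at this

theorem jpF_ne_zero : jpF p ≠ 0 := by
  intro h
  have := ord_inf_jp p
  rw [h, Place.ord_zero] at this
  have := hp.out.pos
  omega

theorem uF_ne_zero : uF p ≠ 0 := by
  intro h
  have := ord_inf_u p
  rw [h, Place.ord_zero] at this
  have := hp.out.one_lt
  omega

theorem dedekindPsi_p : dedekindPsi p = p + 1 := TwoGauss.dedekindPsi_prime hp.out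

/-- The poles of `j` are the two cusps. -/
theorem ord_j_nonneg {x : Place 𝕂 (modularFunctionFieldBar p)} (h1 : x ≠ MW.cuspInf p)
    (h2 : x ≠ cuspZero p) : 0 ≤ x.ord (X0Emb.jF p) := by
  classical
  by_contra hneg
  have ht : Transcendental 𝕂 (X0Emb.jF p)⁻¹ := fun h => TEll.transcendental_jF0 p (by
    simpa using h.inv)
  have hs := FF.sum_ord_eq_finrank ht
  have hfr : Module.finrank 𝕂⟮(X0Emb.jF p)⁻¹⟯ (modularFunctionFieldBar p) = p + 1 := by
    have e : 𝕂⟮(X0Emb.jF p)⁻¹⟯ = 𝕂⟮X0Emb.jF p⟯ := by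
      apply le_antisymm
      · rw [IntermediateField.adjoin_simple_le_iff]
        exact inv_mem (IntermediateField.mem_adjoin_simple_self _ _)
      · rw [IntermediateField.adjoin_simple_le_iff]
        have := inv_mem (IntermediateField.mem_adjoin_simple_self 𝕂 (X0Emb.jF p)⁻¹)
        rwa [inv_inv] at this
    rw [e, ← dedekindPsi_p]
    exact TEll.finrank_jF0 p
  rw [hfr] at hs
  have hmem : ∀ {y : Place 𝕂 (modularFunctionFieldBar p)}, y.ord (X0Emb.jF p) < 0 →
      y ∈ (FF.finite_zeros ht).toFinset := by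
    intro y hy
    rw [Set.Finite.mem_toFinset]
    change 0 < y.ord (X0Emb.jF p)⁻¹
    rw [y.ord_inv]; omega
  have hpos : ∀ y ∈ (FF.finite_zeros ht).toFinset, 0 < y.ord (X0Emb.jF p)⁻¹ := by
    intro y hy
    rw [Set.Finite.mem_toFinset] at hy
    exact hy
  have hi := hmem (y := MW.cuspInf p) (by rw [ord_inf_j]; norm_num)
  have hz := hmem (y := cuspZero p) (by rw [ord_zero_j]; have := hp.out.pos; omega)
  have hx := hmem (y := x) (by omega)
  have hsub : ({x, MW.cuspInf p, cuspZero p} : Finset _) ⊆ (FF.finite_zeros ht).toFinset := by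
    intro y hy
    simp only [Finset.mem_insert, Finset.mem_singleton] at hy
    rcases hy with rfl | rfl | rfl <;> assumption
  have hle := Finset.sum_le_sum_of_subset_of_nonneg hsub
    (f := fun v : Place 𝕂 (modularFunctionFieldBar p) => v.ord (X0Emb.jF p)⁻¹)
    (fun y hy _ => (hpos y hy).le)
  rw [Finset.sum_insert (by simp [h1, h2]), Finset.sum_insert (by
    simpa using (cuspZero_ne p).symm), Finset.sum_singleton] at hle
  have e1 : (MW.cuspInf p).ord (X0Emb.jF p)⁻¹ = 1 := by rw [Place.ord_inv, ord_inf_j]; norm_num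
  have e2 : (cuspZero p).ord (X0Emb.jF p)⁻¹ = p := by rw [Place.ord_inv, ord_zero_j]; ring
  have e3 := hpos x hx
  rw [e1, e2] at hle
  push_cast at hs
  linarith [hs, hle, e3]

/-- The poles of `j_p` are the two cusps. -/
theorem ord_jp_nonneg {x : Place 𝕂 (modularFunctionFieldBar p)} (h1 : x ≠ MW.cuspInf p)
    (h2 : x ≠ cuspZero p) : 0 ≤ x.ord (jpF p) := by
  have h := ord_j_nonneg p (x := wF p • x) (by
    rintro h; apply h2; rw [cuspZero, ← h, wF_smul_smul]) (by
    rintro h; apply h1; rw [cuspZero] at h; exact MulAction.injective _ h)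
  rwa [ord_wF_smul, wF_jF] at h

omit hp in
theorem mem_of_ord_nonneg (x : Place 𝕂 (modularFunctionFieldBar p)) {f : modularFunctionFieldBar p}
    (h : 0 ≤ x.ord f) : f ∈ x.toValuationSubring := by
  rcases eq_or_ne f 0 with rfl | hf
  · exact zero_mem _
  · exact (FF.mem_iff_ord_nonneg x hf).mpr h

/-- `H(j_p, u) = 0` and `H(j, p ^ 12 / u) = 0`. -/
theorem exists_unitPoly : ∃ H : Polynomial (Polynomial ℤ), H.Monic ∧
    H.eval₂ (Polynomial.eval₂RingHom (Int.castRingHom (modularFunctionFieldBar p)) (X0Emb.jF p))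
      ((p : modularFunctionFieldBar p) ^ 12 * (uF p)⁻¹) = 0 ∧
    H.eval₂ (Polynomial.eval₂RingHom (Int.castRingHom (modularFunctionFieldBar p)) (jpF p))
      (uF p) = 0 := by
  obtain ⟨H, hm, -, h1, h2⟩ := Igusa.modUnitPoly p
  refine ⟨H, hm, ?_, ?_⟩
  · apply (algebraMap (modularFunctionFieldBar p) (LaurentSeries 𝕂)).injective
    have e := congrArg (coeffMap (Int.castRingHom 𝕂)) h1
    rw [Polynomial.hom_eval₂, map_zero] at e
    rw [map_zero, ← e, Polynomial.hom_eval₂]
    congr 1
    · refine Polynomial.ringHom_ext' (RingHom.ext_int _ _) ?_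
      simp only [RingHom.coe_comp, Function.comp_apply, Polynomial.coe_eval₂RingHom,
        Polynomial.eval₂_X, coeffMap_jqModC]
      exact coe_jF' p
    · rw [map_mul, map_pow, map_natCast, map_mul, map_pow, map_natCast, map_mul, coeffMap_qExpand]
      change _ * (uSer p 𝕂)⁻¹ = _
      rw [uSer, S28aux.coeffMap_deltaC, S28aux.coeffMap_deltaInvC, mul_inv, S28aux.deltaInvC_eq,
        ← map_inv₀, inv_inv]
      ring
  · apply (algebraMap (modularFunctionFieldBar p) (LaurentSeries 𝕂)).injective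
    have e := congrArg (coeffMap (Int.castRingHom 𝕂)) h2
    rw [Polynomial.hom_eval₂, map_zero] at e
    rw [map_zero, ← e, Polynomial.hom_eval₂]
    congr 1
    · refine Polynomial.ringHom_ext' (RingHom.ext_int _ _) ?_
      simp only [RingHom.coe_comp, Function.comp_apply, Polynomial.coe_eval₂RingHom,
        Polynomial.eval₂_X, coeffMap_qExpand, coeffMap_jqModC]
      rfl
    · rw [map_mul, coeffMap_qExpand, S28aux.coeffMap_deltaC, S28aux.coeffMap_deltaInvC]
      rfl

/-- `u` has neither zeros nor poles outside the cusps. -/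
theorem ord_u_eq_zero {x : Place 𝕂 (modularFunctionFieldBar p)} (h1 : x ≠ MW.cuspInf p)
    (h2 : x ≠ cuspZero p) : x.ord (uF p) = 0 := by
  obtain ⟨H, hm, e1, e2⟩ := exists_unitPoly p
  have m1 := mem_of_monic x.toValuationSubring (mem_of_ord_nonneg p x (ord_j_nonneg p h1 h2)) hm e1
  have m2 := mem_of_monic x.toValuationSubring (mem_of_ord_nonneg p x (ord_jp_nonneg p h1 h2)) hm e2
  have hp0 : (p : modularFunctionFieldBar p) ^ 12 ≠ 0 :=
    pow_ne_zero _ (by exact_mod_cast hp.out.ne_zero)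
  have hu0 := uF_ne_zero p
  rw [FF.mem_iff_ord_nonneg x (mul_ne_zero hp0 (inv_ne_zero hu0)), x.ord_mul hp0 (inv_ne_zero hu0),
    x.ord_inv] at m1
  rw [FF.mem_iff_ord_nonneg x hu0] at m2
  have hpc : x.ord ((p : modularFunctionFieldBar p) ^ 12) = 0 := by
    have : ((p : modularFunctionFieldBar p) ^ 12) =
        algebraMap 𝕂 (modularFunctionFieldBar p) ((p : 𝕂) ^ 12) := by
      rw [map_pow, map_natCast]
    rw [this, FF.ord_algebraMap]
  rw [hpc] at m1
  omega

theorem ord_zero_u : (cuspZero p).ord (uF p) = p - 1 := by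
  classical
  have h := FF.degree_divOf (K := 𝕂) (uF p)
  have hd : FF.divOf (K := 𝕂) (uF p) = Finsupp.single (cuspZero p) ((cuspZero p).ord (uF p)) +
      Finsupp.single (MW.cuspInf p) ((MW.cuspInf p).ord (uF p)) := by
    ext x
    rw [FF.divOf_apply, Finsupp.add_apply]
    by_cases h1 : x = MW.cuspInf p
    · subst h1
      rw [Finsupp.single_eq_same, Finsupp.single_eq_of_ne (cuspZero_ne p).symm, zero_add]
    by_cases h2 : x = cuspZero p
    · subst h2
      rw [Finsupp.single_eq_same, Finsupp.single_eq_of_ne h1, add_zero]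
    rw [Finsupp.single_eq_of_ne h2, Finsupp.single_eq_of_ne h1, ord_u_eq_zero p h1 h2, add_zero]
  rw [hd, map_add, Divisor.degree_single, Divisor.degree_single, FF.deg_eq_one, FF.deg_eq_one,
    ord_inf_u] at h
  push_cast at h
  linarith

theorem eq_cusp_of_ord_j_neg {x : Place 𝕂 (modularFunctionFieldBar p)}
    (h : x.ord (X0Emb.jF p) < 0) : x = MW.cuspInf p ∨ x = cuspZero p := by
  by_contra hcon
  push Not at hcon
  exact absurd (ord_j_nonneg p hcon.1 hcon.2) (not_le.mpr h)

omit hp in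
theorem galois_jF (σ : 𝕂 ≃ₐ[ℚ] 𝕂) :
    arithmeticGalois (modularFunctionFieldFull p) σ • X0Emb.jF p = X0Emb.jF p := by
  apply Subtype.ext
  rw [coe_arithmeticGalois_smul, coe_jF', coeffMap_jqModC]

theorem galois_jpF (σ : 𝕂 ≃ₐ[ℚ] 𝕂) :
    arithmeticGalois (modularFunctionFieldFull p) σ • jpF p = jpF p := by
  apply Subtype.ext
  rw [coe_arithmeticGalois_smul, coe_jpF, coeffMap_qExpand, coeffMap_jqModC]

theorem galois_uF (σ : 𝕂 ≃ₐ[ℚ] 𝕂) :
    arithmeticGalois (modularFunctionFieldFull p) σ • uF p = uF p := by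
  apply Subtype.ext
  rw [coe_arithmeticGalois_smul, coe_uF, coeffMap_uSer]

theorem smul_cuspZero (σ : 𝕂 ≃ₐ[ℚ] 𝕂) :
    arithmeticGalois (modularFunctionFieldFull p) σ • cuspZero p = cuspZero p := by
  have h := SemilinearAut.ord_smul (arithmeticGalois (modularFunctionFieldFull p) σ)
    (cuspZero p) (X0Emb.jF p)
  rw [galois_jF, ord_zero_j] at h
  rcases eq_cusp_of_ord_j_neg p (x := arithmeticGalois (modularFunctionFieldFull p) σ • cuspZero p)
    (by rw [h]; have := hp.out.pos; omega) with h1 | h1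
  · rw [h1, ord_inf_j] at h
    have := hp.out.one_lt
    omega
  · exact h1

end Cusps

end Fermat.Agent.Moduli
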