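import Fermat.Agent.Moduli.Weier

set_option autoImplicit false

open Filter Topology

open scoped PeriodPair

namespace Fermat.Agent.Moduli

variable (L : PeriodPair)

/-- the slope -/
noncomputable def slp (u v : ℂ) : ℂ := (℘'[L] u - ℘'[L] v) / (℘[L] u - ℘[L] v)

lemma sub_notMem {c u : ℂ} (hc : c ∉ L.lattice) (hu : u ∈ L.lattice) : c - u ∉ L.lattice := by
  intro h
  apply hc
  have := add_mem h hu
  simpa using this

/-- derivative of `u ↦ slp u (c - u)` -/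
lemma hasDerivAt_slp_sub {c u : ℂ} (hu : u ∉ L.lattice) (hv : c - u ∉ L.lattice)
    (hne : ℘[L] u ≠ ℘[L] (c - u)) :
    HasDerivAt (fun z => slp L z (c - z)) (2 * (℘[L] u - ℘[L] (c - u))) u := by
  have hs : HasDerivAt (fun z : ℂ => c - z) (-1) u := by
    simpa using (hasDerivAt_id u).const_sub c
  have d1 := hasDerivAt_P L hu
  have d2 : HasDerivAt (fun z => ℘[L] (c - z)) (℘'[L] (c - u) * (-1)) u :=
    HasDerivAt.comp (h₂ := ℘[L]) u (hasDerivAt_P L hv) hs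
  have d3 := hasDerivAt_P' L hu
  have d4 : HasDerivAt (fun z => ℘'[L] (c - z)) ((6 * ℘[L] (c - u) ^ 2 - L.g₂ / 2) * (-1)) u :=
    HasDerivAt.comp (h₂ := ℘'[L]) u (hasDerivAt_P' L hv) hs
  have hne' : ℘[L] u - ℘[L] (c - u) ≠ 0 := sub_ne_zero.mpr hne
  have := (d3.fun_sub d4).fun_div (d1.fun_sub d2) hne'
  refine (this.congr_deriv ?_)
  rw [div_eq_iff (pow_ne_zero 2 hne')]
  have e1 := P'_sq L hu
  have e2 := P'_sq L hv
  linear_combination (-1 : ℂ) * e1 + e2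

lemma hasDerivAt_Q {c u : ℂ} (hu : u ∉ L.lattice) (hv : c - u ∉ L.lattice)
    (hne : ℘[L] u ≠ ℘[L] (c - u)) :
    HasDerivAt (fun z => slp L z (c - z) ^ 2 / 4 - ℘[L] z - ℘[L] (c - z)) 0 u := by
  have hs : HasDerivAt (fun z : ℂ => c - z) (-1) u := by
    simpa using (hasDerivAt_id u).const_sub c
  have d1 := hasDerivAt_P L hu
  have d2 : HasDerivAt (fun z => ℘[L] (c - z)) (℘'[L] (c - u) * (-1)) u :=
    HasDerivAt.comp (h₂ := ℘[L]) u (hasDerivAt_P L hv) hs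
  have d3 := hasDerivAt_slp_sub L hu hv hne
  have := (((d3.fun_pow 2).div_const 4).fun_sub d1).fun_sub d2
  refine this.congr_deriv ?_
  have hne' : ℘[L] u - ℘[L] (c - u) ≠ 0 := sub_ne_zero.mpr hne
  simp only [slp, Nat.cast_ofNat, Nat.add_one_sub_one, pow_one]
  field_simp
  ring

/-- limit of `Q` at `0` -/
lemma tendsto_Q {c : ℂ} (hc : c ∉ L.lattice) :
    Tendsto (fun z => slp L z (c - z) ^ 2 / 4 - ℘[L] z - ℘[L] (c - z)) (𝓝[≠] 0) (𝓝 (℘[L] c)) := by
  set ε : ℂ → ℂ := ℘[L - (0:ℂ)] with hε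
  set δ : ℂ → ℂ := ℘'[L - (0:ℂ)] with hδ
  have cε : ContinuousAt ε 0 := continuousAt_except_zero L
  have cδ : ContinuousAt δ 0 := continuousAt_derivExcept_zero L
  have ε0 : ε 0 = 0 := by simp [hε]
  have cR : ContinuousAt (fun z => ℘[L] (c - z)) 0 := by
    refine ContinuousAt.comp (g := ℘[L]) ?_ (by fun_prop)
    simpa using (analyticAt_P L hc).continuousAt
  have cR' : ContinuousAt (fun z => ℘'[L] (c - z)) 0 := by
    refine ContinuousAt.comp (g := ℘'[L]) ?_ (by fun_prop)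
    simpa using (analyticAt_P' L hc).continuousAt
  -- the explicit expression
  set s : ℂ → ℂ := fun z => (δ z - ℘'[L] (c - z)) / 2 with hs
  set t : ℂ → ℂ := fun z => ε z - ℘[L] (c - z) with ht
  have cs : ContinuousAt s 0 := (cδ.sub cR').div_const 2
  have ct : ContinuousAt t 0 := cε.sub cR
  have hlim : ContinuousAt (fun z => (-2 * z * s z + z ^ 4 * s z ^ 2 - 2 * t z - z ^ 2 * t z ^ 2) /
      (1 + z ^ 2 * t z) ^ 2 - ε z - ℘[L] (c - z)) 0 := by
    refine ((ContinuousAt.div ?_ ?_ ?_).sub cε).sub cR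
    · fun_prop
    · fun_prop
    · simp
  have hval : (fun z => (-2 * z * s z + z ^ 4 * s z ^ 2 - 2 * t z - z ^ 2 * t z ^ 2) /
      (1 + z ^ 2 * t z) ^ 2 - ε z - ℘[L] (c - z)) 0 = ℘[L] c := by
    simp only [ht, ε0, sub_zero]
    ring
  have hT := hlim.tendsto
  simp only [] at hval
  rw [hval] at hT
  refine (hT.mono_left nhdsWithin_le_nhds).congr' ?_
  have hnz : ∀ᶠ z in 𝓝[≠] (0:ℂ), 1 + z ^ 2 * t z ≠ 0 := by
    have : ContinuousAt (fun z => 1 + z ^ 2 * t z) 0 := by fun_prop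
    refine (this.eventually_ne ?_).filter_mono nhdsWithin_le_nhds
    simp
  filter_upwards [hnz, self_mem_nhdsWithin] with z hz hz0
  have hz0 : z ≠ 0 := hz0
  have e1 : ℘[L] z = 1 / z ^ 2 + ε z := weierstrassP_eq L z
  have e2 : ℘'[L] z = -2 / z ^ 3 + δ z := derivWeierstrassP_eq L z
  have e3 : ℘[L] z - ℘[L] (c - z) = (1 + z ^ 2 * t z) / z ^ 2 := by
    rw [e1, ht]; field_simp; ring
  have e4 : ℘'[L] z - ℘'[L] (c - z) = -2 * (1 - z ^ 3 * s z) / z ^ 3 := by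
    rw [e2, hs]; field_simp; ring
  have e5 : slp L z (c - z) = -2 * (1 - z ^ 3 * s z) / (z * (1 + z ^ 2 * t z)) := by
    rw [slp, e3, e4]
    field_simp
  rw [e5, e1]
  field_simp
  ring

/-- Addition theorem, polynomial form. -/
lemma addition_aux {c : ℂ} (hc : c ∉ L.lattice) {u : ℂ} (hu : u ∉ L.lattice)
    (hv : c - u ∉ L.lattice) :
    (℘'[L] u - ℘'[L] (c - u)) ^ 2 =
      4 * (℘[L] u - ℘[L] (c - u)) ^ 2 * (℘[L] c + ℘[L] u + ℘[L] (c - u)) := by
  -- near zero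
  have hcl : ∀ᶠ z in 𝓝 (0:ℂ), c - z ∉ L.lattice := by
    have h : ContinuousAt (fun z : ℂ => c - z) 0 := by fun_prop
    exact h.eventually (by simpa using eventually_notMem_lattice' L hc)
  have hne : ∀ᶠ z in 𝓝[≠] (0:ℂ), ℘[L] z ≠ ℘[L] (c - z) := by
    have cR : ContinuousAt (fun z => ℘[L] (c - z)) 0 := by
      refine ContinuousAt.comp (g := ℘[L]) ?_ (by fun_prop)
      simpa using (analyticAt_P L hc).continuousAt
    have hb : ∀ᶠ z in 𝓝[≠] (0:ℂ), ‖℘[L] (c - z)‖ < ‖℘[L] (c - 0)‖ + 1 :=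
      ((cR.norm.tendsto).eventually_lt_const (by simp)).filter_mono nhdsWithin_le_nhds
    filter_upwards [hb, (tendsto_P_zero L).eventually_gt_atTop (‖℘[L] (c - 0)‖ + 1)] with z h1 h2 h3
    rw [h3] at h2
    linarith
  have hall : ∀ᶠ z in 𝓝[≠] (0:ℂ), z ∉ L.lattice ∧ c - z ∉ L.lattice ∧ ℘[L] z ≠ ℘[L] (c - z) :=
    (eventually_notMem_lattice L 0).and ((hcl.filter_mono nhdsWithin_le_nhds).and hne)
  obtain ⟨r, hr, hball⟩ : ∃ r > 0, ∀ z ∈ Metric.ball (0:ℂ) r \ {0},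
      z ∉ L.lattice ∧ c - z ∉ L.lattice ∧ ℘[L] z ≠ ℘[L] (c - z) := by
    rw [eventually_nhdsWithin_iff, Metric.eventually_nhds_iff_ball] at hall
    obtain ⟨r, hr, h⟩ := hall
    exact ⟨r, hr, fun z hz => h z hz.1 hz.2⟩
  set U : Set ℂ := Metric.ball (0:ℂ) r \ {0} with hU
  have hUo : IsOpen U := Metric.isOpen_ball.sdiff isClosed_singleton
  have hUc : IsPreconnected U := isPreconnected_punctured_ball r
  set Q : ℂ → ℂ := fun z => slp L z (c - z) ^ 2 / 4 - ℘[L] z - ℘[L] (c - z) with hQ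
  have hQd : ∀ z ∈ U, HasDerivAt Q 0 z := fun z hz =>
    hasDerivAt_Q L (hball z hz).1 (hball z hz).2.1 (hball z hz).2.2
  have hQc : ∀ z ∈ U, Q z = ℘[L] c := by
    obtain ⟨a, ha⟩ := hUo.exists_is_const_of_deriv_eq_zero hUc
      (fun z hz => (hQd z hz).differentiableAt.differentiableWithinAt)
      (fun z hz => (hQd z hz).deriv)
    have hlim := tendsto_Q L hc
    have hUmem : U ∈ 𝓝[≠] (0:ℂ) := by
      rw [hU]
      exact sdiff_mem_nhdsWithin_compl (Metric.ball_mem_nhds _ hr) _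
    have : Tendsto Q (𝓝[≠] 0) (𝓝 a) := by
      refine Tendsto.congr' ?_ tendsto_const_nhds
      filter_upwards [hUmem] with z hz using (ha z hz).symm
    have e := tendsto_nhds_unique hlim this
    intro z hz
    rw [ha z hz, ← e]
  -- the analytic function
  set Ω : Set ℂ := ((L.lattice : Set ℂ) ∪ (fun z => c - z) ⁻¹' (L.lattice : Set ℂ))ᶜ with hΩ
  have hcount : ((L.lattice : Set ℂ) ∪ (fun z => c - z) ⁻¹' (L.lattice : Set ℂ)).Countable := by
    refine (countable_lattice L).union ((countable_lattice L).preimage ?_)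
    intro a b h
    simpa using h
  have hΩc : IsPreconnected Ω := isPreconnected_compl_of_countable hcount
  have hmem : ∀ z, z ∈ Ω ↔ z ∉ L.lattice ∧ c - z ∉ L.lattice := by
    intro z; simp [hΩ]
  have hF : AnalyticOnNhd ℂ (fun z => (℘'[L] z - ℘'[L] (c - z)) ^ 2 -
      4 * (℘[L] z - ℘[L] (c - z)) ^ 2 * (℘[L] c + ℘[L] z + ℘[L] (c - z))) Ω := by
    intro z hz
    rw [hmem] at hz
    have a1 := analyticAt_P L hz.1
    have a2 := analyticAt_P' L hz.1
    have as : AnalyticAt ℂ (fun z : ℂ => c - z) z := by fun_prop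
    have a3 : AnalyticAt ℂ (fun z => ℘[L] (c - z)) z := (analyticAt_P L hz.2).comp as
    have a4 : AnalyticAt ℂ (fun z => ℘'[L] (c - z)) z := (analyticAt_P' L hz.2).comp as
    fun_prop
  obtain ⟨z0, hz0⟩ : U.Nonempty := punctured_ball_nonempty hr
  have hFz : (fun z => (℘'[L] z - ℘'[L] (c - z)) ^ 2 -
      4 * (℘[L] z - ℘[L] (c - z)) ^ 2 * (℘[L] c + ℘[L] z + ℘[L] (c - z))) =ᶠ[𝓝 z0] 0 := by
    filter_upwards [hUo.mem_nhds hz0] with z hz
    have h1 := hQc z hz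
    have h2 := sub_ne_zero.mpr (hball z hz).2.2
    simp only [hQ, slp, div_pow] at h1
    simp only [Pi.zero_apply]
    have h3 : (℘'[L] z - ℘'[L] (c - z)) ^ 2 / (℘[L] z - ℘[L] (c - z)) ^ 2 =
      4 * (℘[L] c + ℘[L] z + ℘[L] (c - z)) := by linear_combination 4 * h1
    rw [div_eq_iff (pow_ne_zero 2 h2)] at h3
    linear_combination h3
  have := hF.eqOn_zero_of_preconnected_of_eventuallyEq_zero hΩc
    ((hmem z0).mpr ⟨(hball z0 hz0).1, (hball z0 hz0).2.1⟩) hFz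
  have h := this ((hmem u).mpr ⟨hu, hv⟩)
  simp only [Pi.zero_apply] at h
  linear_combination h

/-- The addition theorem for `℘`. -/
theorem P_add {u v : ℂ} (hu : u ∉ L.lattice) (hv : v ∉ L.lattice) (hne : ℘[L] u ≠ ℘[L] v) :
    ℘[L] (u + v) = slp L u v ^ 2 / 4 - ℘[L] u - ℘[L] v := by
  have huv : u + v ∉ L.lattice := by
    intro h
    apply hne
    have : ℘[L] (-v + (u + v)) = ℘[L] (-v) := L.weierstrassP_add_coe (-v) ⟨_, h⟩
    rw [L.weierstrassP_neg] at this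
    rw [← this]
    congr 1; ring
  have h := addition_aux L huv hu (by simpa using hv)
  have e : u + v - u = v := by ring
  rw [e] at h
  have h2 := sub_ne_zero.mpr hne
  rw [slp, div_pow, h]
  field_simp
  ring

lemma add_notMem {u v : ℂ} (hne : ℘[L] u ≠ ℘[L] v) : u + v ∉ L.lattice := by
  intro h
  apply hne
  have : ℘[L] (-v + (u + v)) = ℘[L] (-v) := L.weierstrassP_add_coe (-v) ⟨_, h⟩
  rw [L.weierstrassP_neg] at this
  rw [← this]
  congr 1; ring

/-- The addition theorem for `℘'`. -/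
theorem P'_add {u v : ℂ} (hu : u ∉ L.lattice) (hv : v ∉ L.lattice) (hne : ℘[L] u ≠ ℘[L] v) :
    ℘'[L] (u + v) = - (slp L u v * (℘[L] (u + v) - ℘[L] u) + ℘'[L] u) := by
  have huv : u + v ∉ L.lattice := add_notMem L hne
  have h2 := sub_ne_zero.mpr hne
  have ev : (fun z => ℘[L] (z + v)) =ᶠ[𝓝 u] fun z => slp L z v ^ 2 / 4 - ℘[L] z - ℘[L] v := by
    have c1 : ∀ᶠ z in 𝓝 u, ℘[L] z ≠ ℘[L] v :=
      (analyticAt_P L hu).continuousAt.eventually_ne hne
    filter_upwards [c1, eventually_notMem_lattice' L hu] with z h1 h2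
    exact P_add L h2 hv h1
  have d1 : HasDerivAt (fun z => ℘[L] (z + v)) (℘'[L] (u + v)) u :=
    (hasDerivAt_P L huv).comp_add_const u v
  have d2 : HasDerivAt (fun z => slp L z v)
      (((6 * ℘[L] u ^ 2 - L.g₂ / 2) * (℘[L] u - ℘[L] v) - (℘'[L] u - ℘'[L] v) * ℘'[L] u) /
        (℘[L] u - ℘[L] v) ^ 2) u :=
    ((hasDerivAt_P' L hu).sub_const _).fun_div ((hasDerivAt_P L hu).sub_const _) h2
  have d3 := (((d2.fun_pow 2).div_const 4).fun_sub (hasDerivAt_P L hu)).sub_const (℘[L] v)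
  have e := (d1.congr_of_eventuallyEq ev.symm).unique d3
  rw [e, P_add L hu hv hne]
  have e1 := P'_sq L hu
  have e2 := P'_sq L hv
  simp only [slp, Nat.cast_ofNat, Nat.add_one_sub_one, pow_one]
  field_simp
  linear_combination (℘'[L] u - ℘'[L] v) * (e2 - e1)

end Fermat.Agent.Moduli
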