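import Fermat.Agent.Moduli.Cusp
import Mathlib.RingTheory.Valuation.LocalSubring

/-!
# Points of `X₀(p)` over `ℚ̄` with prescribed algebraic values
-/

set_option autoImplicit false

open ModularCurve AlgebraicCurve IntermediateField UpperHalfPlane
open Fermat.Agent.X0Emb (iota LExp aff)

noncomputable section

namespace Fermat.Agent.Moduli

section General

variable {K F : Type*} [Field K] [Field F] [Algebra K F] [FF.IsFF K F]

/-- A system of values compatible with all polynomial relations is realised at a place. -/
theorem exists_place_of_relations {I : Type*} (f : I → F) (a : I → K)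
    (hrel : ∀ P : MvPolynomial I K, MvPolynomial.aeval f P = 0 → MvPolynomial.aeval a P = 0)
    (hne : ∃ i, f i ≠ algebraMap K F (a i)) :
    ∃ x : Place K F, ∀ i, f i = algebraMap K F (a i) ∨ 0 < x.ord (f i - algebraMap K F (a i)) := by
  classical
  set φ : MvPolynomial I K →ₐ[K] F := MvPolynomial.aeval f with hφ
  set R : Subring F := φ.range.toSubring with hR
  have hmemR : ∀ P, φ P ∈ R := fun P => ⟨P, rfl⟩
  let J : Ideal R :=
    { carrier := {r | ∃ P, MvPolynomial.aeval a P = 0 ∧ φ P = (r : F)}
      add_mem' := by
        rintro r s ⟨P, h1, h2⟩ ⟨Q, h3, h4⟩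
        exact ⟨P + Q, by rw [map_add, h1, h3, add_zero], by rw [map_add, h2, h4]; rfl⟩
      zero_mem' := ⟨0, map_zero _, by rw [map_zero]; rfl⟩
      smul_mem' := by
        rintro ⟨r, P, rfl⟩ s ⟨Q, h1, h2⟩
        refine ⟨P * Q, by rw [map_mul, h1, mul_zero], ?_⟩
        rw [map_mul, h2]
        rfl }
  have hJ : J ≠ ⊤ := by
    rw [Ne, Ideal.eq_top_iff_one]
    rintro ⟨P, h1, h2⟩
    have h3 : φ (P - 1) = 0 := by rw [map_sub, h2, map_one]; exact sub_self _
    have h4 := hrel _ h3
    rw [map_sub, h1, map_one, zero_sub, neg_eq_zero] at h4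
    exact one_ne_zero h4
  obtain ⟨V, hV1, hV2⟩ := Ideal.image_subset_nonunits_valuationSubring J hJ
  have hKV : ∀ c : K, algebraMap K F c ∈ V := fun c => hV1 (by
    have := hmemR (algebraMap K _ c)
    rwa [AlgHom.commutes] at this)
  have hval : ∀ i, f i - algebraMap K F (a i) ∈ V.nonunits := by
    intro i
    refine hV2 ⟨⟨φ (MvPolynomial.X i - MvPolynomial.C (a i)), hmemR _⟩, ?_, ?_⟩
    · refine ⟨_, ?_, rfl⟩
      rw [map_sub, MvPolynomial.aeval_X, MvPolynomial.aeval_C]
      exact sub_self _
    · change φ _ = _
      rw [map_sub, hφ, MvPolynomial.aeval_X, MvPolynomial.aeval_C]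
  have hne' : V ≠ ⊤ := by
    rintro rfl
    obtain ⟨i, hi⟩ := hne
    rcases (ValuationSubring.mem_nonunits_iff_or (⊤ : ValuationSubring F)).mp (hval i) with h | h
    · exact hi (sub_eq_zero.mp h)
    · exact h (ValuationSubring.mem_top _)
  refine ⟨FF.placeOf V hKV hne', fun i => ?_⟩
  by_cases h : f i = algebraMap K F (a i)
  · exact Or.inl h
  right
  have h0 : f i - algebraMap K F (a i) ≠ 0 := sub_ne_zero.mpr h
  rcases (ValuationSubring.mem_nonunits_iff_or V).mp (hval i) with h1 | h1
  · exact absurd h1 h0
  · by_contra h2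
    apply h1
    refine (FF.mem_iff_ord_nonneg (FF.placeOf V hKV hne') (inv_ne_zero h0)).mpr ?_
    rw [Place.ord_inv]
    omega

end General

section Modular

/-- the algebraic numbers -/
local notation "𝕂" => AlgebraicClosure ℚ

variable (p : ℕ) [hp : Fact p.Prime]

/-- A system of modular functions on `X₀(p)` has a common algebraic point. -/
theorem exists_place_of_values {I : Type*} (f : I → modularFunctionFieldBar p) (F : I → ℍ → ℂ)
    (hF : ∀ i, LExp 1 (F i) (coeffMap iota (f i : LaurentSeries 𝕂))) (τ : ℍ) (a : I → 𝕂)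
    (ha : ∀ i, iota (a i) = F i τ)
    (hne : ∃ i, f i ≠ algebraMap 𝕂 (modularFunctionFieldBar p) (a i)) :
    ∃ x : Place 𝕂 (modularFunctionFieldBar p), ∀ i,
      f i = algebraMap 𝕂 (modularFunctionFieldBar p) (a i) ∨
        0 < x.ord (f i - algebraMap 𝕂 (modularFunctionFieldBar p) (a i)) := by
  refine exists_place_of_relations f a (fun P hP => ?_) hne
  -- the expansion of the function `P (F τ)`
  have key : ∀ P : MvPolynomial I 𝕂,
      LExp 1 (fun τ => MvPolynomial.eval₂ iota (fun i => F i τ) P)
        (coeffMap iota ((MvPolynomial.aeval f P : modularFunctionFieldBar p) :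
          LaurentSeries 𝕂)) := by
    intro P
    induction P using MvPolynomial.induction_on with
    | C c =>
      have h := LExp.const 1 (iota c)
      have e : coeffMap iota (((MvPolynomial.aeval f (MvPolynomial.C c)) :
          modularFunctionFieldBar p) : LaurentSeries 𝕂) = HahnSeries.C (iota c) := by
        rw [MvPolynomial.aeval_C]
        change coeffMap iota (algebraMap 𝕂 (LaurentSeries 𝕂) c) = _
        rw [algebraMap_laurentSeries_eq_single, coeffMap_single]
        rfl
      rw [e]
      simpa using h
    | add P Q hP hQ =>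
      have h := hP.add hQ
      have e : (fun τ => MvPolynomial.eval₂ iota (fun i => F i τ) (P + Q)) =
          (fun τ => MvPolynomial.eval₂ iota (fun i => F i τ) P) +
          (fun τ => MvPolynomial.eval₂ iota (fun i => F i τ) Q) := by
        funext τ
        exact MvPolynomial.eval₂_add _ _
      have e2 : MvPolynomial.aeval f (P + Q) = MvPolynomial.aeval f P + MvPolynomial.aeval f Q :=
        (MvPolynomial.aeval f).map_add' P Q
      rw [e, e2]
      change LExp 1 _ (coeffMap iota (_ + _))
      rw [map_add]
      exact h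
    | mul_X P i hP =>
      have h := hP.mul (hF i)
      have e : (fun τ => MvPolynomial.eval₂ iota (fun i => F i τ) (P * MvPolynomial.X i)) =
          (fun τ => MvPolynomial.eval₂ iota (fun i => F i τ) P) * F i := by
        funext τ
        rw [Pi.mul_apply, MvPolynomial.eval₂_mul, MvPolynomial.eval₂_X]
      have e2 : MvPolynomial.aeval f (P * MvPolynomial.X i) = MvPolynomial.aeval f P * f i := by
        refine ((MvPolynomial.aeval f).map_mul' P _).trans ?_
        exact congrArg _ (MvPolynomial.aeval_X f i)
      rw [e, e2]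
      change LExp 1 _ (coeffMap iota (_ * _))
      rw [map_mul]
      exact h
  have h1 := key P
  rw [hP] at h1
  change LExp 1 _ (coeffMap iota 0) at h1
  rw [map_zero] at h1
  have h2 := congrFun (h1.funext (LExp.zero 1)) τ
  have h3 : iota (MvPolynomial.aeval a P) = MvPolynomial.eval₂ iota (fun i => F i τ) P := by
    rw [MvPolynomial.aeval_def, MvPolynomial.hom_eval₂]
    simp only [ha]
    rfl
  apply iota.injective
  rw [h3, map_zero]
  exact h2

end Modular

end Fermat.Agent.Moduli
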