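import Fermat.Agent.Moduli.Eisen

set_option autoImplicit false

open UpperHalfPlane ModularForm EisensteinSeries

open scoped PeriodPair

noncomputable section

namespace Fermat.Agent.Moduli

open Fermat.Agent.JLevelOne (jFun)
open Fermat.Agent.X0Emb (aff)

lemma div_im_ne_zero {α β : ℂ} (h : LinearIndependent ℝ ![α, β]) : α ≠ 0 ∧ (β / α).im ≠ 0 := by
  rw [LinearIndependent.pair_iff] at h
  have hα : α ≠ 0 := by
    rintro rfl
    have := h 1 0 (by simp)
    exact one_ne_zero this.1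
  refine ⟨hα, fun him => ?_⟩
  have h1 : β = ((β / α).re : ℂ) * α := by
    have : β / α = ((β / α).re : ℂ) := by
      apply Complex.ext <;> simp [him]
    rw [← this]; field_simp
  have := h (β / α).re (-1) (by
    simp only [Complex.real_smul]
    push_cast
    linear_combination -h1)
  norm_num at this

lemma exists_orient {α β : ℂ} (h : LinearIndependent ℝ ![α, β]) :
    ∃ (hα : α ≠ 0) (τ : ℍ), (mkPP α hα τ).lattice = Submodule.span ℤ {α, β} := by
  obtain ⟨hα, him⟩ := div_im_ne_zero h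
  refine ⟨hα, ?_⟩
  rcases lt_or_gt_of_ne him with hlt | hgt
  · refine ⟨⟨-(β / α), by simpa using hlt⟩, ?_⟩
    have e : α * ((⟨-(β / α), by simpa using hlt⟩ : ℍ) : ℂ) = -β := by
      change α * (-(β / α)) = -β
      field_simp
    rw [PeriodPair.lattice, mkPP_ω₁, mkPP_ω₂, e]
    apply le_antisymm
    · rw [Submodule.span_le]
      rintro x (rfl | rfl)
      · exact Submodule.subset_span (by simp)
      · exact neg_mem (Submodule.subset_span (by simp))
    · rw [Submodule.span_le]
      rintro x (rfl | rfl)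
      · exact Submodule.subset_span (by simp)
      · rw [← neg_neg x]
        exact neg_mem (Submodule.subset_span (by simp))
  · refine ⟨⟨β / α, hgt⟩, ?_⟩
    have e : α * ((⟨β / α, hgt⟩ : ℍ) : ℂ) = β := by
      change α * (β / α) = β
      field_simp
    rw [PeriodPair.lattice, mkPP_ω₁, mkPP_ω₂, e]

lemma superlattice_aux {L : PeriodPair} {p : ℕ} [NeZero p] {ω α : ℂ} (hα : α ≠ 0)
    (hα' : α / p ≠ 0) {τ : ℍ}
    (hL : (mkPP α hα τ).lattice = L.lattice) {k₀ k₁ : ℤ} (h0 : α / p - k₀ * ω ∈ L.lattice)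
    (h1 : ω - k₁ * (α / p) ∈ L.lattice) (z : ℂ) :
    z ∈ (mkPP (α / p) hα' (aff p 0 1 τ)).lattice ↔ ∃ k : ℤ, z - k * ω ∈ L.lattice := by
  have hp : (p : ℂ) ≠ 0 := by exact_mod_cast NeZero.ne p
  have eτ : α / p * ((aff p 0 1 τ : ℍ) : ℂ) = α * τ := by
    rw [Fermat.Agent.X0Emb.coe_aff]
    push_cast
    field_simp
    ring
  have zs : ∀ (k : ℤ) (x : ℂ), x ∈ L.lattice → (k : ℂ) * x ∈ L.lattice := by
    intro k x hx
    have := L.lattice.smul_mem k hx
    simpa using this
  rw [mem_mkPP, eτ]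
  constructor
  · rintro ⟨m, n, rfl⟩
    refine ⟨m * k₀, ?_⟩
    have h2 : α * τ ∈ L.lattice := by
      rw [← hL]
      exact PeriodPair.ω₂_mem_lattice _
    have : (m : ℂ) * (α / p) + n * (α * τ) - ((m * k₀ : ℤ) : ℂ) * ω =
        m * (α / p - k₀ * ω) + n * (α * τ) := by push_cast; ring
    rw [this]
    exact add_mem (zs _ _ h0) (zs _ _ h2)
  · rintro ⟨k, hk⟩
    have h2 : z - ((k * k₁ : ℤ) : ℂ) * (α / p) ∈ L.lattice := by
      have : z - ((k * k₁ : ℤ) : ℂ) * (α / p) = (z - k * ω) + k * (ω - k₁ * (α / p)) := by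
        push_cast; ring
      rw [this]
      exact add_mem hk (zs _ _ h1)
    rw [← hL, mem_mkPP] at h2
    obtain ⟨m, n, hmn⟩ := h2
    refine ⟨m * p + k * k₁, n, ?_⟩
    have : (((m * p + k * k₁ : ℤ) : ℂ)) * (α / p) = m * α + ((k * k₁ : ℤ) : ℂ) * (α / p) := by
      push_cast
      field_simp
    rw [this]
    linear_combination hmn

theorem exists_basis (L : PeriodPair) {p : ℕ} [NeZero p] (hp : p.Prime) {ω : ℂ}
    (h1 : (p : ℂ) * ω ∈ L.lattice) (h2 : ω ∉ L.lattice) :
    ∃ (α : ℂ) (hα : α ≠ 0) (hα' : α / p ≠ 0) (τ : ℍ), (mkPP α hα τ).lattice = L.lattice ∧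
      ∀ z, z ∈ (mkPP (α / p) hα' (aff p 0 1 τ)).lattice ↔ ∃ k : ℤ, z - k * ω ∈ L.lattice := by
  have hpC : (p : ℂ) ≠ 0 := by exact_mod_cast NeZero.ne p
  obtain ⟨a, b, hab⟩ := PeriodPair.mem_lattice.mp h1
  have zs : ∀ (k : ℤ) (x : ℂ), x ∈ L.lattice → (k : ℂ) * x ∈ L.lattice := by
    intro k x hx
    have := L.lattice.smul_mem k hx
    simpa using this
  have hind := LinearIndependent.pair_iff.mp L.indep
  have hω : ω = (a * L.ω₁ + b * L.ω₂) / p := by rw [hab]; field_simp
  have hpZ : Prime (p : ℤ) := Nat.prime_iff_prime_int.mp hp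
  by_cases ha : (p : ℤ) ∣ a
  · obtain ⟨a', rfl⟩ := ha
    have hb : ¬ (p : ℤ) ∣ b := by
      rintro ⟨b', rfl⟩
      apply h2
      rw [hω, PeriodPair.mem_lattice]
      refine ⟨a', b', ?_⟩
      push_cast
      field_simp
    obtain ⟨u, v, huv⟩ := (hpZ.coprime_iff_not_dvd (n := b)).mpr hb
    have huv' : (u : ℂ) * p + v * b = 1 := by exact_mod_cast huv
    have hli : LinearIndependent ℝ ![L.ω₂, L.ω₁] := by
      rw [LinearIndependent.pair_iff]
      intro s t h
      have := hind t s (by rw [← h]; ring)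
      exact ⟨this.2, this.1⟩
    obtain ⟨hα, τ, hτ⟩ := exists_orient hli
    have hL : (mkPP L.ω₂ hα τ).lattice = L.lattice := by
      rw [hτ, PeriodPair.lattice, Set.pair_comm]
    refine ⟨L.ω₂, hα, div_ne_zero hα hpC, τ, hL, ?_⟩
    refine superlattice_aux hα (div_ne_zero hα hpC) hL (k₀ := v) (k₁ := b) ?_ ?_
    · rw [PeriodPair.mem_lattice]
      refine ⟨-v * a', u, ?_⟩
      rw [hω]
      push_cast
      field_simp
      linear_combination L.ω₂ * huv'
    · rw [PeriodPair.mem_lattice]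
      refine ⟨a', 0, ?_⟩
      rw [hω]
      push_cast
      field_simp
      ring
  · obtain ⟨u, v, huv⟩ := (hpZ.coprime_iff_not_dvd (n := a)).mpr ha
    have huv' : (u : ℂ) * p + v * a = 1 := by exact_mod_cast huv
    have hli : LinearIndependent ℝ ![L.ω₁ + ((v * b : ℤ) : ℂ) * L.ω₂, L.ω₂] := by
      rw [LinearIndependent.pair_iff]
      intro s t h
      have := hind s (s * ((v * b : ℤ) : ℝ) + t) (by
        rw [← h]
        simp only [Complex.real_smul]
        push_cast
        ring)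
      refine ⟨this.1, ?_⟩
      have h3 := this.2
      rw [this.1] at h3
      linarith
    obtain ⟨hα, τ, hτ⟩ := exists_orient hli
    have hL : (mkPP (L.ω₁ + ((v * b : ℤ) : ℂ) * L.ω₂) hα τ).lattice = L.lattice := by
      rw [hτ, PeriodPair.lattice]
      apply le_antisymm
      · rw [Submodule.span_le]
        rintro x (rfl | rfl)
        · exact add_mem L.ω₁_mem_lattice (zs _ _ L.ω₂_mem_lattice)
        · exact Submodule.subset_span (by simp)
      · rw [Submodule.span_le]
        rintro x (rfl | rfl)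
        · have m1 : L.ω₁ + ((v * b : ℤ) : ℂ) * L.ω₂ ∈
              Submodule.span ℤ {L.ω₁ + ((v * b : ℤ) : ℂ) * L.ω₂, L.ω₂} :=
            Submodule.subset_span (by simp)
          have m2 : L.ω₂ ∈ Submodule.span ℤ {L.ω₁ + ((v * b : ℤ) : ℂ) * L.ω₂, L.ω₂} :=
            Submodule.subset_span (by simp)
          have m3 := Submodule.sub_mem _ m1 (Submodule.smul_mem _ (v * b : ℤ) m2)
          simpa using m3
        · exact Submodule.subset_span (by simp)
    refine ⟨_, hα, div_ne_zero hα hpC, τ, hL, ?_⟩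
    refine superlattice_aux hα (div_ne_zero hα hpC) hL (k₀ := v) (k₁ := a) ?_ ?_
    · rw [PeriodPair.mem_lattice]
      refine ⟨u, 0, ?_⟩
      rw [hω]
      push_cast
      field_simp
      linear_combination L.ω₁ * huv'
    · rw [PeriodPair.mem_lattice]
      refine ⟨0, u * b, ?_⟩
      rw [hω]
      push_cast
      field_simp
      linear_combination b * L.ω₂ * huv'

end Fermat.Agent.Moduli
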