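import Fermat.Agent.Moduli.Main
import Fermat.Agent.ModFun.Conv
import Fermat.Agent.Igusa.UnitPoly
import Fermat.Agent.Igusa.Fricke
import Fermat.Agent.Igusa.Degen
import Fermat.Agent.IntStruct.Division
import Fermat.Agent.TEll.Inputs

set_option autoImplicit false

open UpperHalfPlane hiding I
open ModularForm ModularCurve CongruenceSubgroup
open scoped MatrixGroups Manifold

noncomputable section

namespace Fermat.Agent.Moduli

open Fermat.Agent.JLevelOne Fermat.Agent.ModFun Fermat.Agent.Igusa Fermat.Agent.S28aux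
open Fermat.Agent.X0Emb (aff LExp)

variable (p : ℕ) [NeZero p]

/-- the function `Δ(τ)/Δ(pτ)`. -/
def uFun (τ : ℍ) : ℂ := ModularForm.discriminant τ / ModularForm.discriminant (aff p 0 1 τ)

lemma aff_eq_mulN (τ : ℍ) : aff p 0 1 τ = mulN p τ := by
  ext
  rw [X0Emb.coe_aff, coe_mulN]
  push_cast
  ring

lemma uFun_mdiff : MDiff (uFun p) :=
  mdiff_discriminant.div (mdiff_comp_aff mdiff_discriminant p 0 1) fun _ => discriminant_ne_zero _

lemma uFun_inv (γ : SL(2, ℤ)) (hγ : γ ∈ Gamma0 p) (τ : ℍ) : uFun p (γ • τ) = uFun p τ := by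
  have hdvd : (p : ℤ) ∣ γ 1 0 := (ZMod.intCast_zmod_eq_zero_iff_dvd _ _).1 (Gamma0_mem.1 hγ)
  set D : ModularForm 𝒮ℒ 12 := CuspForm.toModularFormₗ CuspForm.discriminant with hD
  set E : ModularForm (Gamma0 p) 12 := degen p (dvd_refl p) D with hE
  have hDτ : ∀ τ, D τ = ModularForm.discriminant τ := fun _ => rfl
  have h1 : E (γ • τ) = denom γ τ ^ (12 : ℤ) * E τ := by
    have h := congrFun (E.slash_action_eq' _ ⟨γ, hγ, rfl⟩) τ
    have h' : ((E : ℍ → ℂ) ∣[(12 : ℤ)] γ) τ = E τ := h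
    rw [ModularForm.SL_slash_apply] at h'
    have hd : denom γ τ ≠ 0 := denom_ne_zero _ _
    rw [← h', mul_comm, mul_assoc, ← zpow_add₀ hd, neg_add_cancel, zpow_zero, mul_one]
  rw [hE, degen_apply, degen_apply, hDτ, hDτ, ← aff_eq_mulN, ← aff_eq_mulN] at h1
  have hp : ((p : ℂ) ^ ((12 : ℤ) - 1)) ≠ 0 := zpow_ne_zero _ (by exact_mod_cast NeZero.ne p)
  have h2 : ModularForm.discriminant (aff p 0 1 (γ • τ)) =
      denom γ τ ^ (12 : ℤ) * ModularForm.discriminant (aff p 0 1 τ) := by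
    apply mul_left_cancel₀ hp
    linear_combination h1
  rw [uFun, uFun, h2, discriminant_smul]
  have hd : denom γ τ ≠ 0 := denom_ne_zero _ _
  have := discriminant_ne_zero (aff p 0 1 τ)
  have hd' : denom γ τ ^ (12 : ℤ) ≠ 0 := zpow_ne_zero _ hd
  field_simp

lemma uFun_root [hp : Fact p.Prime] : ∃ Ψ : Polynomial (Polynomial ℂ), Ψ.Monic ∧
    ∀ τ, (Ψ.map (Polynomial.evalRingHom (jFun (aff p 0 1 τ)))).eval (uFun p τ) = 0 := by
  obtain ⟨Ψ, h1, -, h3⟩ := exists_unitPoly p
  refine ⟨Ψ, h1, fun τ => ?_⟩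
  have h := h3 (some ⟨0, hp.out.pos⟩) (aff p 0 1 τ)
  have e : unitFun p (some ⟨0, hp.out.pos⟩) (aff p 0 1 τ) = uFun p τ := by
    simp only [unitFun, uFun]
    congr 2
    ext
    have hp0 : (p : ℂ) ≠ 0 := by exact_mod_cast hp.out.ne_zero
    rw [coe_heckeMatrix_smul hp.out.ne_zero, X0Emb.coe_aff]
    push_cast
    field_simp
    ring
  rwa [e] at h

lemma growthInf_norm_of_le {F : ℍ → ℂ} {G : ℍ → ℝ} {m : ℕ}
    (hG : G =O[atImInfty] (fun τ : ℍ => Real.exp (m * τ.im))) (h : ∀ τ, ‖F τ‖ ≤ G τ) :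
    GrowthInf F :=
  ⟨m, (Asymptotics.IsBigO.of_norm_le (g := fun τ => ‖G τ‖) fun τ => (h τ).trans (le_abs_self _)).trans hG.norm_left⟩

lemma uFun_growth [hp : Fact p.Prime] : ModGrowth (uFun p) := by
  obtain ⟨Ψ, hmon, hroot⟩ := uFun_root p
  intro σ
  set J : ℍ → ℂ := fun τ => jFun (aff p 0 1 (σ • τ)) with hJ
  have hJg : GrowthInf J := (jd_growth p) σ
  have hcoef : ∀ Q : Polynomial ℂ, GrowthInf (fun τ => Q.eval (J τ)) := by
    intro Q
    induction Q using Polynomial.induction_on' with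
    | add P Q hP hQ =>
      simp only [Polynomial.eval_add]
      exact hP.add hQ
    | monomial n a =>
      simp only [Polynomial.eval_monomial]
      exact (GrowthInf.const a).mul (hJg.pow n)
  have key : ∀ τ : ℍ, ‖uFun p (σ • τ)‖ ≤
      1 + ∑ i ∈ Finset.range Ψ.natDegree, ‖(Ψ.coeff i).eval (J τ)‖ := by
    intro τ
    apply IntStruct.norm_le_of_monic_root
    have h := hroot (σ • τ)
    rw [Polynomial.eval_eq_sum_range, hmon.natDegree_map, Finset.sum_range_succ] at h
    simp only [Polynomial.coeff_map, Polynomial.coe_evalRingHom] at h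
    rw [hmon.coeff_natDegree, Polynomial.eval_one, one_mul] at h
    rw [← h, add_comm]
  choose m hm using fun i : ℕ => hcoef (Ψ.coeff i)
  set M := ∑ i ∈ Finset.range Ψ.natDegree, m i with hM
  have hbound : (fun τ : ℍ => (1 : ℝ) + ∑ i ∈ Finset.range Ψ.natDegree,
      ‖(Ψ.coeff i).eval (J τ)‖) =O[atImInfty] (fun τ : ℍ => Real.exp (M * τ.im)) := by
    refine Asymptotics.IsBigO.add ?_ ?_
    · refine Asymptotics.IsBigO.of_norm_le fun τ => ?_
      rw [norm_one]
      have := τ.im_pos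
      exact Real.one_le_exp (by positivity)
    · refine Asymptotics.IsBigO.fun_sum fun i hi => ?_
      refine ((hm i).norm_left).trans (exp_isBigO ?_)
      exact Finset.single_le_sum (f := m) (fun _ _ => Nat.zero_le _) hi
  exact growthInf_norm_of_le hbound key

/-- the `q`-expansion of `Δ(τ)/Δ(pτ)`. -/
def uSer (R : Type*) [CommRing R] : LaurentSeries R := deltaC R * qExpand R p (deltaInvC R)

lemma coeffMap_uSer {R S : Type*} [CommRing R] [CommRing S] (f : R →+* S) :
    coeffMap f (uSer p R) = uSer p S := by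
  rw [uSer, map_mul, coeffMap_qExpand, coeffMap_deltaC, coeffMap_deltaInvC, uSer]

lemma lexp_uFun : LExp 1 (uFun p) (uSer p ℂ) := by
  have h1 : HasLExp (fun τ => (ModularForm.discriminant (mulN p τ))⁻¹) (qExpand ℂ p (deltaInvC ℂ)) :=
    hasLExp_discriminant_inv.comp_mulN p
  exact (hasLExp_discriminant.mul h1).congr fun τ => by
    rw [uFun, aff_eq_mulN, div_eq_mul_inv]

theorem uSer_mem [hp : Fact p.Prime] : uSer p (AlgebraicClosure ℚ) ∈ modularFunctionFieldBar p := by
  refine mem_modularFunctionFieldBar p X0Emb.iota (uFun_mdiff p) (uFun_inv p) (uFun_growth p) ?_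
  rw [coeffMap_uSer]
  exact lexp_uFun p

end Fermat.Agent.Moduli
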