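import Mathlib

set_option autoImplicit false

open Filter Topology

open scoped PeriodPair

namespace Fermat.Agent.Moduli

variable (L : PeriodPair)

/-- the complement of a countable set is preconnected -/
lemma isPreconnected_compl_of_countable {s : Set ℂ} (hs : s.Countable) :
    IsPreconnected sᶜ :=
  (hs.isConnected_compl_of_one_lt_rank (by simp)).isPreconnected

lemma image_polar (r : ℝ) :
    (fun p : ℝ × ℝ => (p.1 : ℂ) * Complex.exp (p.2 * Complex.I)) '' (Set.Ioo 0 r ×ˢ Set.univ) =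
      Metric.ball (0:ℂ) r \ {0} := by
  ext z
  constructor
  · rintro ⟨⟨ρ, θ⟩, ⟨h1, -⟩, rfl⟩
    have h1 : 0 < ρ ∧ ρ < r := h1
    refine ⟨?_, ?_⟩
    · simp [Complex.norm_exp_ofReal_mul_I, abs_of_pos h1.1, h1.2]
    · simp [h1.1.ne']
  · rintro ⟨h1, h2⟩
    refine ⟨(‖z‖, Complex.arg z), ⟨⟨?_, ?_⟩, trivial⟩, ?_⟩
    · exact norm_pos_iff.mpr h2
    · simpa using h1
    · exact Complex.norm_mul_exp_arg_mul_I z

lemma isPreconnected_punctured_ball (r : ℝ) :
    IsPreconnected (Metric.ball (0:ℂ) r \ {0}) := by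
  rw [← image_polar]
  refine IsPreconnected.image (isPreconnected_Ioo.prod isPreconnected_univ) _ ?_
  fun_prop

lemma punctured_ball_nonempty {r : ℝ} (hr : 0 < r) : (Metric.ball (0:ℂ) r \ {0}).Nonempty := by
  refine ⟨((r / 2 : ℝ) : ℂ), ?_, ?_⟩
  · simp only [Metric.mem_ball, dist_zero_right, Complex.norm_real, Real.norm_eq_abs]
    rw [abs_of_pos (by positivity)]
    linarith
  · simp [hr.ne']

lemma countable_lattice : (L.lattice : Set ℂ).Countable :=
  countable_of_Lindelof_of_discrete (X := L.lattice)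

lemma isPreconnected_compl_lattice : IsPreconnected (L.lattice : Set ℂ)ᶜ :=
  isPreconnected_compl_of_countable (countable_lattice L)

lemma isOpen_compl_lattice : IsOpen (L.lattice : Set ℂ)ᶜ :=
  L.isClosed_lattice.isOpen_compl

lemma eventually_notMem_lattice (x : ℂ) : ∀ᶠ z in 𝓝[≠] x, z ∉ L.lattice := by
  have h := L.compl_lattice_sdiff_singleton_mem_nhds x
  filter_upwards [mem_nhdsWithin_of_mem_nhds h, self_mem_nhdsWithin] with z hz hz'
  intro hzL
  exact hz ⟨hzL, hz'⟩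

lemma eventually_notMem_lattice' {x : ℂ} (hx : x ∉ L.lattice) : ∀ᶠ z in 𝓝 x, z ∉ L.lattice :=
  (isOpen_compl_lattice L).mem_nhds hx

/-- near `0` we have `℘ = z⁻² + ε(z)`. -/
lemma weierstrassP_eq (z : ℂ) : ℘[L] z = 1 / z ^ 2 + ℘[L - (0:ℂ)] z := by
  have := L.weierstrassPExcept_add 0 z
  simp only [ZeroMemClass.coe_zero, sub_zero, ne_eq, OfNat.ofNat_ne_zero, not_false_eq_true,
    zero_pow, div_zero] at this
  rw [← this]; ring

lemma derivWeierstrassP_eq (z : ℂ) : ℘'[L] z = - 2 / z ^ 3 + ℘'[L - (0:ℂ)] z := by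
  have := L.derivWeierstrassPExcept_sub 0 z
  simp only [ZeroMemClass.coe_zero, sub_zero] at this
  rw [← this]; ring

lemma continuousAt_except_zero : ContinuousAt ℘[L - (0:ℂ)] 0 :=
  (L.analyticAt_weierstrassPExcept 0).continuousAt

lemma continuousAt_derivExcept_zero : ContinuousAt ℘'[L - (0:ℂ)] 0 :=
  (L.analyticAt_derivWeierstrassPExcept 0).continuousAt

lemma analyticAt_P {x : ℂ} (hx : x ∉ L.lattice) : AnalyticAt ℂ ℘[L] x :=
  L.analyticOnNhd_weierstrassP x hx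

lemma analyticAt_P' {x : ℂ} (hx : x ∉ L.lattice) : AnalyticAt ℂ ℘'[L] x :=
  L.analyticOnNhd_derivWeierstrassP x hx

lemma hasDerivAt_P {x : ℂ} (hx : x ∉ L.lattice) : HasDerivAt ℘[L] (℘'[L] x) x := by
  have := (analyticAt_P L hx).differentiableAt.hasDerivAt
  rwa [L.deriv_weierstrassP] at this

/-- `℘` tends to infinity at `0`. -/
lemma tendsto_P_zero : Tendsto (fun z => ‖℘[L] z‖) (𝓝[≠] 0) atTop := by
  have h1 : Tendsto (fun z : ℂ => ‖(1 / z ^ 2 : ℂ)‖) (𝓝[≠] 0) atTop := by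
    have : Tendsto (fun z : ℂ => z ^ (-2 : ℤ)) (𝓝[≠] 0) (Bornology.cobounded ℂ) := by
      exact tendsto_zpow_nhdsNE_zero_cobounded (by norm_num)
    have h2 := tendsto_norm_cobounded_atTop.comp this
    refine h2.congr fun z => ?_
    simp [zpow_neg]
  have h2 : Tendsto (fun z : ℂ => ‖℘[L - (0:ℂ)] z‖) (𝓝[≠] 0) (𝓝 ‖℘[L - (0:ℂ)] 0‖) :=
    ((continuousAt_except_zero L).norm.tendsto).mono_left nhdsWithin_le_nhds
  have h3 : Tendsto (fun z : ℂ => ‖(1 / z ^ 2 : ℂ)‖ - ‖℘[L - (0:ℂ)] z‖) (𝓝[≠] 0) atTop := by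
    simpa [sub_eq_add_neg] using h1.atTop_add h2.neg
  refine tendsto_atTop_mono (fun z => ?_) h3
  rw [weierstrassP_eq]
  have := norm_sub_norm_le (1 / z ^ 2 : ℂ) (-℘[L - (0:ℂ)] z)
  simpa using this

/-- `℘` is nowhere locally constant. -/
lemma eventually_P_ne {x : ℂ} (hx : x ∉ L.lattice) (a : ℂ) : ∀ᶠ z in 𝓝[≠] x, ℘[L] z ≠ a := by
  rcases (analyticAt_P L hx).eventually_eq_or_eventually_ne (analyticAt_const (v := a)) with h | h
  · exfalso
    have h1 : Set.EqOn ℘[L] (fun _ => a) (L.lattice : Set ℂ)ᶜ :=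
      L.analyticOnNhd_weierstrassP.eqOn_of_preconnected_of_eventuallyEq
        analyticOnNhd_const (isPreconnected_compl_lattice L) hx h
    have h2 : Tendsto (fun z => ‖℘[L] z‖) (𝓝[≠] 0) (𝓝 ‖a‖) := by
      refine Tendsto.congr' ?_ tendsto_const_nhds
      filter_upwards [eventually_notMem_lattice L 0] with z hz
      rw [h1 hz]
    exact not_tendsto_nhds_of_tendsto_atTop (tendsto_P_zero L) _ h2
  · exact h

lemma P'_sq {z : ℂ} (hz : z ∉ L.lattice) :
    ℘'[L] z ^ 2 = 4 * ℘[L] z ^ 3 - L.g₂ * ℘[L] z - L.g₃ := L.derivWeierstrassP_sq z hz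

/-- the second derivative of `℘`. -/
lemma hasDerivAt_P' {x : ℂ} (hx : x ∉ L.lattice) :
    HasDerivAt ℘'[L] (6 * ℘[L] x ^ 2 - L.g₂ / 2) x := by
  have h1 : AnalyticOnNhd ℂ (deriv ℘'[L]) (L.lattice : Set ℂ)ᶜ :=
    L.analyticOnNhd_derivWeierstrassP.deriv
  have hA : AnalyticOnNhd ℂ (fun z => deriv ℘'[L] z - (6 * ℘[L] z ^ 2 - L.g₂ / 2))
      (L.lattice : Set ℂ)ᶜ := by
    refine h1.sub ?_
    refine AnalyticOnNhd.sub ?_ analyticOnNhd_const
    exact analyticOnNhd_const.mul (L.analyticOnNhd_weierstrassP.pow 2)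
  have key : ∀ z ∈ (L.lattice : Set ℂ)ᶜ,
      ℘'[L] z * (deriv ℘'[L] z - (6 * ℘[L] z ^ 2 - L.g₂ / 2)) = 0 := by
    intro z hz
    have e : (fun w => ℘'[L] w ^ 2) =ᶠ[𝓝 z] fun w => 4 * ℘[L] w ^ 3 - L.g₂ * ℘[L] w - L.g₃ := by
      filter_upwards [eventually_notMem_lattice' L hz] with w hw using P'_sq L hw
    have d1 : HasDerivAt (fun w => ℘'[L] w ^ 2) (2 * ℘'[L] z * deriv ℘'[L] z) z := by
      have := ((analyticAt_P' L hz).differentiableAt.hasDerivAt).fun_pow 2
      simpa using this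
    have d2 : HasDerivAt (fun w => 4 * ℘[L] w ^ 3 - L.g₂ * ℘[L] w - L.g₃)
        (4 * (3 * ℘[L] z ^ 2 * ℘'[L] z) - L.g₂ * ℘'[L] z) z := by
      have := ((((hasDerivAt_P L hz).fun_pow 3).const_mul 4).fun_sub
        ((hasDerivAt_P L hz).const_mul L.g₂)).sub_const L.g₃
      simpa using this
    have := (d1.congr_of_eventuallyEq e.symm).unique d2
    linear_combination this / 2
  have h0 : ∀ z ∈ (L.lattice : Set ℂ)ᶜ, (deriv ℘'[L] z - (6 * ℘[L] z ^ 2 - L.g₂ / 2)) = 0 := by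
    rcases AnalyticOnNhd.eq_zero_or_eq_zero_of_mul_eq_zero
      (L.analyticOnNhd_derivWeierstrassP) hA key (isPreconnected_compl_lattice L) with h | h
    · exfalso
      -- then `℘` is locally constant
      obtain ⟨x, hx⟩ : ∃ x, x ∉ L.lattice := ⟨_, L.ω₁_div_two_notMem_lattice⟩
      have hc : ∀ᶠ z in 𝓝 x, ℘[L] z = ℘[L] x := by
        filter_upwards [eventually_notMem_lattice' L hx] with z hz
        refine (isOpen_compl_lattice L).is_const_of_deriv_eq_zero (isPreconnected_compl_lattice L)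
          L.differentiableOn_weierstrassP ?_ hz hx
        intro y hy
        rw [L.deriv_weierstrassP]
        exact h y hy
      have := (hc.filter_mono nhdsWithin_le_nhds).and (eventually_P_ne L hx (℘[L] x))
      obtain ⟨z, h1, h2⟩ := this.exists
      exact h2 h1
    · exact h
  have hd := (analyticAt_P' L hx).differentiableAt.hasDerivAt
  have := h0 x hx
  rw [sub_eq_zero] at this
  rwa [this] at hd

end Fermat.Agent.Moduli
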